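import Mathlib
import Fermat.Prelude.Def_FLTPrelim_GaloisRep

set_option autoImplicit false

/-!
# S51: Galois glue

The fixed field of `Gal(ℚ̄/ℚ)` is `ℚ`, and the Galois action on points in coordinates.
-/

namespace Fermat.Agent.S51

open WeierstrassCurve WeierstrassCurve.Affine

theorem isAlgClosure_ratAlgClosure : IsAlgClosure ℚ (AlgebraicClosure ℚ) := by
  have h : (DivisionRing.toRatAlgebra : Algebra ℚ (AlgebraicClosure ℚ)) =
      AlgebraicClosure.instAlgebra ℚ := Subsingleton.elim _ _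
  rw [h]
  infer_instance

theorem isGalois_ratAlgClosure : IsGalois ℚ (AlgebraicClosure ℚ) := by
  have := isAlgClosure_ratAlgClosure
  infer_instance

/-- An element of `ℚ̄` fixed by the whole Galois group is rational. -/
theorem exists_rat_of_fixed (x : AlgebraicClosure ℚ)
    (h : ∀ σ : AlgebraicClosure ℚ ≃ₐ[ℚ] AlgebraicClosure ℚ, σ x = x) :
    ∃ q : ℚ, algebraMap ℚ (AlgebraicClosure ℚ) q = x := by
  have := isGalois_ratAlgClosure
  exact (InfiniteGalois.mem_range_algebraMap_iff_fixed (k := ℚ) (K := AlgebraicClosure ℚ) x).mpr h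

section

variable {W' : Affine ℚ}

/-- The Galois action on an affine point, in coordinates. -/
theorem smul_some (σ : AlgebraicClosure ℚ ≃ₐ[ℚ] AlgebraicClosure ℚ) {x y : AlgebraicClosure ℚ}
    (h : (W'⁄(AlgebraicClosure ℚ)).Nonsingular x y) :
    ∃ h' : (W'⁄(AlgebraicClosure ℚ)).Nonsingular (σ x) (σ y),
      σ • (Affine.Point.some x y h : (W'⁄(AlgebraicClosure ℚ)).Point)
        = Affine.Point.some (σ x) (σ y) h' :=
  ⟨_, rfl⟩

theorem smul_zsmul (σ : AlgebraicClosure ℚ ≃ₐ[ℚ] AlgebraicClosure ℚ) (m : ℤ)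
    (P : (W'⁄(AlgebraicClosure ℚ)).Point) : σ • (m • P) = m • (σ • P) :=
  Affine.Point.algEquiv_smul_zsmul σ m P

theorem smul_eq_zero_iff (σ : AlgebraicClosure ℚ ≃ₐ[ℚ] AlgebraicClosure ℚ)
    (P : (W'⁄(AlgebraicClosure ℚ)).Point) : σ • P = 0 ↔ P = 0 := by
  constructor
  · intro h
    cases P with
    | zero => rfl
    | some x y hxy =>
      obtain ⟨h', he⟩ := smul_some σ hxy
      rw [he] at h
      exact absurd h (by simp)
  · rintro rfl
    exact smul_zero (A := (W'⁄(AlgebraicClosure ℚ)).Point) σ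

end

end Fermat.Agent.S51
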