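import Mathlib

/-!
# The `5`-adic endgame for `S51`

The four non-cuspidal rational points of `X₀(15)` have `5`-isogeny parameter
`t ∈ {-10, -40, -25/2, -25/8}`, and the relation `c₄ ^ 3 * t = Δ * (t ^ 2 + 10 * t + 5) ^ 3` then
forces `5 ∣ c₄` and `5 ∣ Δ`, which is impossible for a semistable curve.
-/

set_option autoImplicit false

namespace Fermat.Agent.S51

/-- If `a * c ^ 3 = 5 * m * D` or `a * c ^ 3 = 25 * m * D` with `a`, `m` prime to `5`, then `5`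
divides both `D` and `c`. -/
theorem arith_five_dvd (c D a m : ℤ) (ha : ¬ (5 : ℤ) ∣ a) (hm : ¬ (5 : ℤ) ∣ m)
    (h : a * c ^ 3 = 5 * m * D ∨ a * c ^ 3 = 25 * m * D) : (5 : ℤ) ∣ D ∧ (5 : ℤ) ∣ c := by
  have hp5 : Prime (5 : ℤ) := by
    have := Nat.prime_iff_prime_int.mp Nat.prime_five
    exact_mod_cast this
  have h5 : (5 : ℤ) ∣ a * c ^ 3 := by
    rcases h with h | h
    · exact ⟨m * D, by rw [h]; ring⟩
    · exact ⟨5 * m * D, by rw [h]; ring⟩
  have hc : (5 : ℤ) ∣ c := by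
    rcases hp5.dvd_or_dvd h5 with h' | h'
    · exact absurd h' ha
    · exact hp5.dvd_of_dvd_pow h'
  refine ⟨?_, hc⟩
  obtain ⟨k, rfl⟩ := hc
  have h5' : (5 : ℤ) ∣ m * D := by
    rcases h with h | h
    · refine ⟨5 * a * k ^ 3, ?_⟩
      have h' : (5 : ℤ) * (m * D) = 5 * (5 * (5 * a * k ^ 3)) := by linear_combination -h
      exact mul_left_cancel₀ (by norm_num) h'
    · refine ⟨a * k ^ 3, ?_⟩
      have h' : (25 : ℤ) * (m * D) = 25 * (5 * (a * k ^ 3)) := by linear_combination -h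
      exact mul_left_cancel₀ (by norm_num) h'
  rcases hp5.dvd_or_dvd h5' with h' | h'
  · exact absurd h' hm
  · exact h'

/-- The four non-cuspidal rational points of `X₀(15)` are not semistable. -/
theorem semistable_contra (c4 D : ℤ)
    (hss : ∀ p : ℕ, p.Prime → (p : ℤ) ∣ D → ¬ (p : ℤ) ∣ c4) (t : ℚ)
    (ht : t = -10 ∨ t = -40 ∨ t = -25 / 2 ∨ t = -25 / 8)
    (hj : (c4 : ℚ) ^ 3 * t = (D : ℚ) * (t ^ 2 + 10 * t + 5) ^ 3) : False := by
  have key : ∃ a m : ℤ, ¬ (5 : ℤ) ∣ a ∧ ¬ (5 : ℤ) ∣ m ∧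
      (a * c4 ^ 3 = 5 * m * D ∨ a * c4 ^ 3 = 25 * m * D) := by
    rcases ht with rfl | rfl | rfl | rfl
    · refine ⟨-2, 1, by norm_num, by norm_num, Or.inr ?_⟩
      have h : (((-2 : ℤ) * c4 ^ 3 : ℤ) : ℚ) = ((25 * 1 * D : ℤ) : ℚ) := by
        push_cast
        linear_combination (1 / 5 : ℚ) * hj
      exact_mod_cast h
    · refine ⟨-8, 241 ^ 3, by norm_num, by norm_num, Or.inr ?_⟩
      have h : (((-8 : ℤ) * c4 ^ 3 : ℤ) : ℚ) = ((25 * 241 ^ 3 * D : ℤ) : ℚ) := by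
        push_cast
        linear_combination (1 / 5 : ℚ) * hj
      exact_mod_cast h
    · refine ⟨-32, 29 ^ 3, by norm_num, by norm_num, Or.inl ?_⟩
      have h : (((-32 : ℤ) * c4 ^ 3 : ℤ) : ℚ) = ((5 * 29 ^ 3 * D : ℤ) : ℚ) := by
        push_cast
        linear_combination (64 / 25 : ℚ) * hj
      exact_mod_cast h
    · refine ⟨32768, 211 ^ 3, by norm_num, by norm_num, Or.inl ?_⟩
      have h : (((32768 : ℤ) * c4 ^ 3 : ℤ) : ℚ) = ((5 * 211 ^ 3 * D : ℤ) : ℚ) := by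
        push_cast
        linear_combination (-262144 / 25 : ℚ) * hj
      exact_mod_cast h
  obtain ⟨a, m, ha, hm, h⟩ := key
  obtain ⟨hD, hc⟩ := arith_five_dvd c4 D a m ha hm h
  exact hss 5 Nat.prime_five (by exact_mod_cast hD) (by exact_mod_cast hc)

end Fermat.Agent.S51
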