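import Mathlib

/-!
# The concordant-form descent for `S51`

There are no integers `U Z V W` with `Z ≠ 0`, `U ^ 2 - Z ^ 2 = V ^ 2` and
`U ^ 2 - 81 * Z ^ 2 = W ^ 2`.  The proof is a classical infinite descent on `|Z|`.
-/

set_option autoImplicit false

namespace Fermat.Agent.S51

/-- A positive factor of a square, coprime to its cofactor, is the square of a positive integer. -/
theorem concordant_sq_of_pos {a b c : ℤ} (h : IsCoprime a b) (heq : a * b = c ^ 2) (ha : 0 < a) :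
    ∃ a0 : ℤ, 0 < a0 ∧ a = a0 ^ 2 := by
  obtain ⟨a0, h0 | h0⟩ := Int.sq_of_isCoprime h heq
  · refine ⟨|a0|, ?_, by rw [sq_abs]; exact h0⟩
    have : a0 ≠ 0 := by
      rintro rfl
      simp at h0
      omega
    exact abs_pos.mpr this
  · exfalso
    nlinarith [sq_nonneg a0]

/-- Squares of odd integers are `1` modulo `8`. -/
theorem concordant_sq_mod8 (x : ℤ) (hx : x % 2 = 1) : x ^ 2 % 8 = 1 := by
  have h : x % 8 = 1 ∨ x % 8 = 3 ∨ x % 8 = 5 ∨ x % 8 = 7 := by omega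
  rcases h with h | h | h | h <;> simp [pow_two, Int.mul_emod, h]

/-- Factorisation of a primitive difference of squares equal to an odd square. -/
theorem concordant_factor_odd (U V N : ℤ) (hUV : 0 < U + V) (hcop : IsCoprime U V)
    (h : U ^ 2 - V ^ 2 = N ^ 2) (hN0 : N ≠ 0) (hN : Odd N) :
    ∃ a b : ℤ, 0 < a ∧ 0 < b ∧ IsCoprime a b ∧ U + V = 1 * a ^ 2 ∧ U - V = 1 * b ^ 2 := by
  have hprod : (U + V) * (U - V) = N ^ 2 := by rw [← h]; ring
  have hN2 : 0 < N ^ 2 := by positivity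
  have hUV' : 0 < U - V := by
    by_contra hneg
    rw [not_lt] at hneg
    have := mul_nonpos_of_nonneg_of_nonpos hUV.le hneg
    linarith
  have hc : IsCoprime (U + V) (U - V) := by
    obtain ⟨x, y, hxy⟩ := hcop
    obtain ⟨k, hk⟩ := hN.pow (n := 2)
    refine ⟨(U - V) - k * (x + y), -(k * (x - y)), ?_⟩
    linear_combination hprod + hk - 2 * k * hxy
  obtain ⟨a, ha, hae⟩ := concordant_sq_of_pos hc hprod hUV
  obtain ⟨b, hb, hbe⟩ := concordant_sq_of_pos hc.symm (by rw [mul_comm]; exact hprod) hUV'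
  refine ⟨a, b, ha, hb, ?_, by rw [hae]; ring, by rw [hbe]; ring⟩
  rw [hae, hbe] at hc
  exact (IsCoprime.pow_iff (by norm_num) (by norm_num)).mp hc

/-- Factorisation of a primitive difference of squares equal to an even square. -/
theorem concordant_factor_even (U V N : ℤ) (hUV : 0 < U + V) (hcop : IsCoprime U V)
    (h : U ^ 2 - V ^ 2 = N ^ 2) (hN0 : N ≠ 0) (hN : Even N) :
    ∃ a b : ℤ, 0 < a ∧ 0 < b ∧ IsCoprime a b ∧ U + V = 2 * a ^ 2 ∧ U - V = 2 * b ^ 2 := by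
  have hprod : (U + V) * (U - V) = N ^ 2 := by rw [← h]; ring
  have hN2 : 0 < N ^ 2 := by positivity
  have hUV' : 0 < U - V := by
    by_contra hneg
    rw [not_lt] at hneg
    have := mul_nonpos_of_nonneg_of_nonpos hUV.le hneg
    linarith
  obtain ⟨m, hm⟩ := hN
  have hpar : Even (U + V) := by
    have h2 : Even (U ^ 2 - V ^ 2) := by
      rw [h, hm]
      exact ⟨2 * m ^ 2, by ring⟩
    rw [Int.even_sub, Int.even_pow' two_ne_zero, Int.even_pow' two_ne_zero] at h2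
    exact Int.even_add.mpr h2
  obtain ⟨s, hs⟩ := hpar
  obtain ⟨t, ht⟩ : ∃ t : ℤ, t = s - V := ⟨_, rfl⟩
  have hU : U = s + t := by linarith
  have hV : V = s - t := by linarith
  have hst : s * t = m ^ 2 := by
    have h4 : (4 : ℤ) * (s * t) = 4 * m ^ 2 := by
      rw [hU, hV, hm] at hprod
      linear_combination hprod
    exact mul_left_cancel₀ (by norm_num) h4
  have hc : IsCoprime s t := by
    obtain ⟨x, y, hxy⟩ := hcop
    refine ⟨x + y, x - y, ?_⟩
    rw [hU, hV] at hxy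
    linear_combination hxy
  have hs0 : 0 < s := by linarith
  have ht0 : 0 < t := by linarith
  obtain ⟨a, ha, hae⟩ := concordant_sq_of_pos hc hst hs0
  obtain ⟨b, hb, hbe⟩ := concordant_sq_of_pos hc.symm (by rw [mul_comm]; exact hst) ht0
  refine ⟨a, b, ha, hb, ?_, by rw [← hae]; linarith, by rw [← hbe]; linarith⟩
  rw [hae, hbe] at hc
  exact (IsCoprime.pow_iff (by norm_num) (by norm_num)).mp hc

/-- The descent step in its symmetric form. -/
theorem concordant_descent (α β γ δ : ℤ) (hα : α ≠ 0) (hsum : α ^ 2 + β ^ 2 = γ ^ 2 + δ ^ 2)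
    (hprod : γ * δ = 9 * α * β) (hcop : IsCoprime α β) (h1 : β ^ 2 < γ ^ 2)
    (h3 : β ^ 2 < δ ^ 2) :
    ∃ U V W : ℤ, U ^ 2 - β ^ 2 = V ^ 2 ∧ U ^ 2 - 81 * β ^ 2 = W ^ 2 := by
  have hD : (γ ^ 2 - β ^ 2) * (δ ^ 2 - β ^ 2) = 80 * α ^ 2 * β ^ 2 := by
    linear_combination (γ * δ + 9 * α * β) * hprod + β ^ 2 * hsum
  have hD1 : 0 < γ ^ 2 - β ^ 2 := by linarith
  have hD3 : 0 < δ ^ 2 - β ^ 2 := by linarith
  have hnot : ∀ p : ℤ, Prime p → p ∣ γ ^ 2 - β ^ 2 → p ∣ δ ^ 2 - β ^ 2 →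
      ¬ p ∣ α ∧ ¬ p ∣ β := by
    intro p hp hp1 hp3
    have hdiff : p ∣ α ^ 2 - β ^ 2 := by
      have : α ^ 2 - β ^ 2 = (γ ^ 2 - β ^ 2) + (δ ^ 2 - β ^ 2) := by linear_combination hsum
      rw [this]
      exact dvd_add hp1 hp3
    constructor
    · intro hpa
      have hpb : p ∣ β := by
        have : p ∣ β ^ 2 := by
          have h2 : β ^ 2 = α ^ 2 - (α ^ 2 - β ^ 2) := by ring
          rw [h2]
          exact dvd_sub (dvd_pow hpa two_ne_zero) hdiff
        exact hp.dvd_of_dvd_pow this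
      exact hp.not_isUnit (hcop.isUnit_of_dvd' hpa hpb)
    · intro hpb
      have hpa : p ∣ α := by
        have : p ∣ α ^ 2 := by
          have h2 : α ^ 2 = (α ^ 2 - β ^ 2) + β ^ 2 := by ring
          rw [h2]
          exact dvd_add hdiff (dvd_pow hpb two_ne_zero)
        exact hp.dvd_of_dvd_pow this
      exact hp.not_isUnit (hcop.isUnit_of_dvd' hpa hpb)
  have hc : IsCoprime (γ ^ 2 - β ^ 2) (δ ^ 2 - β ^ 2) := by
    rw [Int.isCoprime_iff_gcd_eq_one]
    by_contra hg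
    obtain ⟨p, hp, hpg⟩ := Nat.exists_prime_and_dvd hg
    have hp1 : (p : ℤ) ∣ γ ^ 2 - β ^ 2 :=
      dvd_trans (Int.natCast_dvd_natCast.mpr hpg) (Int.gcd_dvd_left _ _)
    have hp3 : (p : ℤ) ∣ δ ^ 2 - β ^ 2 :=
      dvd_trans (Int.natCast_dvd_natCast.mpr hpg) (Int.gcd_dvd_right _ _)
    have hpp : Prime (p : ℤ) := Nat.prime_iff_prime_int.mp hp
    obtain ⟨hna, hnb⟩ := hnot p hpp hp1 hp3
    have h80 : (p : ℤ) ∣ 80 := by
      have : (p : ℤ) ∣ 80 * α ^ 2 * β ^ 2 := by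
        rw [← hD]
        exact dvd_mul_of_dvd_left hp1 _
      rcases hpp.dvd_or_dvd this with h | h
      · rcases hpp.dvd_or_dvd h with h | h
        · exact h
        · exact absurd (hpp.dvd_of_dvd_pow h) hna
      · exact absurd (hpp.dvd_of_dvd_pow h) hnb
    have h80' : p ∣ 80 := by exact_mod_cast h80
    have h25 : p = 2 ∨ p = 5 := by
      have : p ∣ 2 ^ 4 * 5 := by
        norm_num
        exact h80'
      rcases (Nat.Prime.dvd_mul hp).mp this with h | h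
      · exact Or.inl ((Nat.prime_dvd_prime_iff_eq hp Nat.prime_two).mp (hp.dvd_of_dvd_pow h))
      · exact Or.inr ((Nat.prime_dvd_prime_iff_eq hp Nat.prime_five).mp h)
    rcases h25 with rfl | rfl
    · push_cast at hp1 hp3 hna hnb
      have ha : α % 2 = 1 := by omega
      have hb : β % 2 = 1 := by omega
      have hb8 := concordant_sq_mod8 β hb
      have ha8 := concordant_sq_mod8 α ha
      have hg : γ % 2 = 1 := by
        by_contra hne
        have hg0 : γ % 2 = 0 := by omega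
        have : γ ^ 2 % 2 = 0 := by simp [pow_two, Int.mul_emod, hg0]
        omega
      have hd : δ % 2 = 1 := by
        by_contra hne
        have hd0 : δ % 2 = 0 := by omega
        have : δ ^ 2 % 2 = 0 := by simp [pow_two, Int.mul_emod, hd0]
        omega
      have hg8 := concordant_sq_mod8 γ hg
      have hd8 := concordant_sq_mod8 δ hd
      obtain ⟨a, ha'⟩ : (8 : ℤ) ∣ γ ^ 2 - β ^ 2 := by omega
      obtain ⟨b, hb'⟩ : (8 : ℤ) ∣ δ ^ 2 - β ^ 2 := by omega
      rw [ha', hb'] at hD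
      have hab8 : (α ^ 2 * β ^ 2) % 8 = 1 := by
        rw [Int.mul_emod, ha8, hb8]
        norm_num
      have h4 : 4 * (a * b) = 5 * (α ^ 2 * β ^ 2) := by linarith
      omega
    · obtain ⟨a, ha'⟩ := hp1
      obtain ⟨b, hb'⟩ := hp3
      rw [ha', hb'] at hD
      have h5 : ((5 : ℕ) : ℤ) ∣ 16 * (α ^ 2 * β ^ 2) := ⟨a * b, by push_cast at hD ⊢; linarith⟩
      rcases hpp.dvd_or_dvd h5 with h | h
      · norm_num at h
      · rcases hpp.dvd_or_dvd h with h | h
        · exact hna (hpp.dvd_of_dvd_pow h)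
        · exact hnb (hpp.dvd_of_dvd_pow h)
  have hp5 : Prime (5 : ℤ) := by
    have := Nat.prime_iff_prime_int.mp Nat.prime_five
    exact_mod_cast this
  have h5 : (5 : ℤ) ∣ (γ ^ 2 - β ^ 2) * (δ ^ 2 - β ^ 2) :=
    ⟨16 * α ^ 2 * β ^ 2, by rw [hD]; ring⟩
  rcases hp5.dvd_or_dvd h5 with ⟨c, hc1⟩ | ⟨c, hc3⟩
  · -- `5 ∣ γ ^ 2 - β ^ 2`, so `δ ^ 2 - β ^ 2` is a square
    have hcop' : IsCoprime (δ ^ 2 - β ^ 2) c := by
      rw [hc1] at hc
      exact hc.symm.of_mul_right_right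
    have hsq : (δ ^ 2 - β ^ 2) * c = (4 * α * β) ^ 2 := by
      have h55 : (5 : ℤ) * ((δ ^ 2 - β ^ 2) * c) = 5 * (4 * α * β) ^ 2 := by
        rw [hc1] at hD
        linear_combination hD
      exact mul_left_cancel₀ (by norm_num) h55
    obtain ⟨n, hn, hne⟩ := concordant_sq_of_pos hcop' hsq hD3
    have hkey : (δ * n) ^ 2 = α ^ 2 * (δ ^ 2 - 81 * β ^ 2) := by
      linear_combination (-δ ^ 2) * hne - (γ * δ + 9 * α * β) * hprod - δ ^ 2 * hsum
    have hdvd : α ∣ δ * n := by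
      have : α ^ 2 ∣ (δ * n) ^ 2 := ⟨δ ^ 2 - 81 * β ^ 2, hkey⟩
      exact (Int.pow_dvd_pow_iff two_ne_zero).mp this
    obtain ⟨w, hw⟩ := hdvd
    refine ⟨δ, n, w, hne, ?_⟩
    have : α ^ 2 * (δ ^ 2 - 81 * β ^ 2) = α ^ 2 * w ^ 2 := by
      rw [← hkey, hw]
      ring
    exact mul_left_cancel₀ (pow_ne_zero 2 hα) this
  · -- `5 ∣ δ ^ 2 - β ^ 2`, so `γ ^ 2 - β ^ 2` is a square
    have hcop' : IsCoprime (γ ^ 2 - β ^ 2) c := by
      rw [hc3] at hc
      exact hc.of_mul_right_right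
    have hsq : (γ ^ 2 - β ^ 2) * c = (4 * α * β) ^ 2 := by
      have h55 : (5 : ℤ) * ((γ ^ 2 - β ^ 2) * c) = 5 * (4 * α * β) ^ 2 := by
        rw [hc3] at hD
        linear_combination hD
      exact mul_left_cancel₀ (by norm_num) h55
    obtain ⟨n, hn, hne⟩ := concordant_sq_of_pos hcop' hsq hD1
    have hkey : (γ * n) ^ 2 = α ^ 2 * (γ ^ 2 - 81 * β ^ 2) := by
      linear_combination (-γ ^ 2) * hne - (γ * δ + 9 * α * β) * hprod - γ ^ 2 * hsum
    have hdvd : α ∣ γ * n := by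
      have : α ^ 2 ∣ (γ * n) ^ 2 := ⟨γ ^ 2 - 81 * β ^ 2, hkey⟩
      exact (Int.pow_dvd_pow_iff two_ne_zero).mp this
    obtain ⟨w, hw⟩ := hdvd
    refine ⟨γ, n, w, hne, ?_⟩
    have : α ^ 2 * (γ ^ 2 - 81 * β ^ 2) = α ^ 2 * w ^ 2 := by
      rw [← hkey, hw]
      ring
    exact mul_left_cancel₀ (pow_ne_zero 2 hα) this

/-- From a factorised primitive solution to a strictly smaller solution. -/
theorem concordant_step (e u v w z a b c d : ℤ) (he : 0 < e) (ha : 0 < a) (hb : 0 < b)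
    (hc : 0 < c) (hd : 0 < d) (hz : 0 < z) (hab : IsCoprime a b)
    (h1 : u ^ 2 - z ^ 2 = v ^ 2) (h2 : u ^ 2 - 81 * z ^ 2 = w ^ 2)
    (hw : 0 ≤ w) (hwv : w < v)
    (e1 : u + v = e * a ^ 2) (e2 : u - v = e * b ^ 2) (e3 : u + w = e * c ^ 2)
    (e4 : u - w = e * d ^ 2) :
    b < z ∧ ∃ U V W : ℤ, U ^ 2 - b ^ 2 = V ^ 2 ∧ U ^ 2 - 81 * b ^ 2 = W ^ 2 := by
  have hsum : a ^ 2 + b ^ 2 = c ^ 2 + d ^ 2 := by
    have : e * (a ^ 2 + b ^ 2) = e * (c ^ 2 + d ^ 2) := by
      linear_combination (-1 : ℤ) * e1 - e2 + e3 + e4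
    exact mul_left_cancel₀ he.ne' this
  have hz2 : z ^ 2 = (e * a * b) ^ 2 := by
    have : z ^ 2 = (u + v) * (u - v) := by linear_combination (-1 : ℤ) * h1
    rw [this, e1, e2]
    ring
  have hzeq : z = e * a * b := (sq_eq_sq₀ hz.le (by positivity)).mp hz2
  have hcd2 : (c * d) ^ 2 = (9 * a * b) ^ 2 := by
    have h81 : (u + w) * (u - w) = 81 * z ^ 2 := by linear_combination h2
    rw [e3, e4, hzeq] at h81
    have : e ^ 2 * (c * d) ^ 2 = e ^ 2 * (9 * a * b) ^ 2 := by linear_combination h81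
    exact mul_left_cancel₀ (pow_ne_zero 2 he.ne') this
  have hcd : c * d = 9 * a * b := (sq_eq_sq₀ (by positivity) (by positivity)).mp hcd2
  have hbc : b ^ 2 < c ^ 2 := by
    have : e * b ^ 2 < e * c ^ 2 := by
      rw [← e2, ← e3]
      linarith
    exact lt_of_mul_lt_mul_left this he.le
  have hbd : b ^ 2 < d ^ 2 := by
    have : e * b ^ 2 < e * d ^ 2 := by
      rw [← e2, ← e4]
      linarith
    exact lt_of_mul_lt_mul_left this he.le
  have hca : c ^ 2 < a ^ 2 := by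
    have : e * c ^ 2 < e * a ^ 2 := by
      rw [← e3, ← e1]
      linarith
    exact lt_of_mul_lt_mul_left this he.le
  refine ⟨?_, concordant_descent a b c d ha.ne' hsum hcd hab hbc hbd⟩
  have ha2 : 2 ≤ a := by
    by_contra hlt
    have h1a : a = 1 := by omega
    subst h1a
    nlinarith
  rw [hzeq]
  have hea : 2 ≤ e * a := by nlinarith
  nlinarith

/-- Reduction to a primitive solution with positive entries. -/
theorem concordant_normalize (U Z V W : ℤ) (h1 : U ^ 2 - Z ^ 2 = V ^ 2)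
    (h2 : U ^ 2 - 81 * Z ^ 2 = W ^ 2) (hZ : Z ≠ 0) :
    ∃ u z v w : ℤ, 0 < u ∧ 0 < z ∧ 0 ≤ v ∧ 0 ≤ w ∧ IsCoprime u z ∧ z.natAbs ≤ Z.natAbs ∧
      u ^ 2 - z ^ 2 = v ^ 2 ∧ u ^ 2 - 81 * z ^ 2 = w ^ 2 := by
  have hg : 0 < Int.gcd U Z := Int.gcd_pos_of_ne_zero_right U hZ
  obtain ⟨u', z', hcop, hU, hZ'⟩ := Int.exists_gcd_one hg
  have hg0 : ((Int.gcd U Z : ℕ) : ℤ) ≠ 0 := by exact_mod_cast hg.ne'
  generalize ((Int.gcd U Z : ℕ) : ℤ) = g at hU hZ' hg0
  clear hg
  subst hU hZ'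
  have hVd : g ∣ V := by
    have : g ^ 2 ∣ V ^ 2 := ⟨u' ^ 2 - z' ^ 2, by rw [← h1]; ring⟩
    exact (Int.pow_dvd_pow_iff two_ne_zero).mp this
  have hWd : g ∣ W := by
    have : g ^ 2 ∣ W ^ 2 := ⟨u' ^ 2 - 81 * z' ^ 2, by rw [← h2]; ring⟩
    exact (Int.pow_dvd_pow_iff two_ne_zero).mp this
  obtain ⟨v', rfl⟩ := hVd
  obtain ⟨w', rfl⟩ := hWd
  have h1' : u' ^ 2 - z' ^ 2 = v' ^ 2 := by
    have : g ^ 2 * (u' ^ 2 - z' ^ 2) = g ^ 2 * v' ^ 2 := by linear_combination h1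
    exact mul_left_cancel₀ (pow_ne_zero 2 hg0) this
  have h2' : u' ^ 2 - 81 * z' ^ 2 = w' ^ 2 := by
    have : g ^ 2 * (u' ^ 2 - 81 * z' ^ 2) = g ^ 2 * w' ^ 2 := by linear_combination h2
    exact mul_left_cancel₀ (pow_ne_zero 2 hg0) this
  have hz0 : z' ≠ 0 := by
    rintro rfl
    exact hZ (by simp)
  have hu0 : u' ≠ 0 := by
    rintro rfl
    have : z' ^ 2 = 0 := by nlinarith [sq_nonneg v', sq_nonneg z']
    exact hz0 (pow_eq_zero_iff two_ne_zero |>.mp this)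
  refine ⟨|u'|, |z'|, |v'|, |w'|, abs_pos.mpr hu0, abs_pos.mpr hz0, abs_nonneg _, abs_nonneg _,
    ?_, ?_, ?_, ?_⟩
  · exact (Int.isCoprime_iff_gcd_eq_one.mpr hcop).abs_abs
  · rw [Int.natAbs_abs, Int.natAbs_mul]
    exact Nat.le_mul_of_pos_right _ (Int.natAbs_pos.mpr hg0)
  · simpa [sq_abs] using h1'
  · simpa [sq_abs] using h2'

/-- The descent, as a strong induction on `|Z|`. -/
theorem concordant_aux : ∀ (n : ℕ) (U Z V W : ℤ), Z.natAbs = n → U ^ 2 - Z ^ 2 = V ^ 2 →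
    U ^ 2 - 81 * Z ^ 2 = W ^ 2 → Z = 0 := by
  intro n
  induction n using Nat.strong_induction_on with
  | _ n ih =>
    intro U Z V W hn h1 h2
    by_contra hZ
    obtain ⟨u, z, v, w, hu, hz, hv, hw, hcop, hle, e1, e2⟩ :=
      concordant_normalize U Z V W h1 h2 hZ
    have hwv : w < v := by
      apply lt_of_pow_lt_pow_left₀ 2 hv
      nlinarith [sq_pos_of_pos hz]
    have huv : IsCoprime u v := by
      have h : IsCoprime u (v ^ 2) := by
        have : v ^ 2 = -(z ^ 2) + u * u := by linear_combination -e1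
        rw [this]
        exact ((hcop.pow_right (n := 2)).neg_right).add_mul_left_right u
      exact (IsCoprime.pow_right_iff (by norm_num)).mp h
    have h3 : ¬ (3 : ℤ) ∣ u := by
      intro h3u
      have key : ∀ a b : ZMod 3, a ^ 2 + b ^ 2 = 0 → a = 0 := by decide
      have hu3 : ((u : ℤ) : ZMod 3) = 0 :=
        (ZMod.intCast_zmod_eq_zero_iff_dvd u 3).mpr (by exact_mod_cast h3u)
      have hc : ((z : ℤ) : ZMod 3) ^ 2 + ((v : ℤ) : ZMod 3) ^ 2 = 0 := by
        have : ((u ^ 2 - z ^ 2 : ℤ) : ZMod 3) = ((v ^ 2 : ℤ) : ZMod 3) := by rw [e1]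
        push_cast at this
        rw [hu3] at this
        linear_combination -this
      have hz3 : (3 : ℤ) ∣ z := by
        have := key _ _ hc
        exact_mod_cast (ZMod.intCast_zmod_eq_zero_iff_dvd z 3).mp this
      have := hcop.isUnit_of_dvd' h3u hz3
      norm_num [Int.isUnit_iff] at this
    have huw : IsCoprime u w := by
      have h : IsCoprime u (w ^ 2) := by
        have : w ^ 2 = -(81 * z ^ 2) + u * u := by linear_combination -e2
        rw [this]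
        have h3' : IsCoprime u 3 :=
          ((Prime.coprime_iff_not_dvd Int.prime_three).mpr h3).symm
        have h81 : IsCoprime u 81 := by
          have : (81 : ℤ) = 3 ^ 4 := by norm_num
          rw [this]
          exact h3'.pow_right
        exact ((h81.mul_right (hcop.pow_right (n := 2))).neg_right).add_mul_left_right u
      exact (IsCoprime.pow_right_iff (by norm_num)).mp h
    have e1' : u ^ 2 - v ^ 2 = z ^ 2 := by linear_combination e1
    have e2' : u ^ 2 - w ^ 2 = (9 * z) ^ 2 := by linear_combination e2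
    have hz0 : z ≠ 0 := hz.ne'
    have h9z0 : 9 * z ≠ 0 := by omega
    have key : ∃ e a b c d : ℤ, 0 < e ∧ 0 < a ∧ 0 < b ∧ 0 < c ∧ 0 < d ∧ IsCoprime a b ∧
        u + v = e * a ^ 2 ∧ u - v = e * b ^ 2 ∧ u + w = e * c ^ 2 ∧ u - w = e * d ^ 2 := by
      rcases Int.even_or_odd z with hpar | hpar
      · obtain ⟨a, b, ha, hb, hab, ea, eb⟩ :=
          concordant_factor_even u v z (by linarith) huv e1' hz0 hpar
        obtain ⟨c, d, hc, hd, -, ec, ed⟩ :=
          concordant_factor_even u w (9 * z) (by linarith) huw e2' h9z0 (hpar.mul_left 9)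
        exact ⟨2, a, b, c, d, by norm_num, ha, hb, hc, hd, hab, ea, eb, ec, ed⟩
      · obtain ⟨a, b, ha, hb, hab, ea, eb⟩ :=
          concordant_factor_odd u v z (by linarith) huv e1' hz0 hpar
        obtain ⟨c, d, hc, hd, -, ec, ed⟩ :=
          concordant_factor_odd u w (9 * z) (by linarith) huw e2' h9z0
            ((by decide : Odd (9 : ℤ)).mul hpar)
        exact ⟨1, a, b, c, d, by norm_num, ha, hb, hc, hd, hab, ea, eb, ec, ed⟩
    obtain ⟨e, a, b, c, d, he, ha, hb, hc, hd, hab, ea, eb, ec, ed⟩ := key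
    obtain ⟨hbz, U', V', W', f1, f2⟩ :=
      concordant_step e u v w z a b c d he ha hb hc hd hz hab e1 e2 hw hwv ea eb ec ed
    have hlt : b.natAbs < n := by
      have : b.natAbs < z.natAbs := Int.natAbs_lt_natAbs_of_nonneg_of_lt hb.le hbz
      omega
    have := ih b.natAbs hlt U' b V' W' rfl f1 f2
    omega

/-- **No concordant pair `(1, 81)`.**  The only integer solutions of
`U ^ 2 - Z ^ 2 = V ^ 2`, `U ^ 2 - 81 * Z ^ 2 = W ^ 2` have `Z = 0`. -/
theorem no_concordant (U Z V W : ℤ) (h1 : U ^ 2 - Z ^ 2 = V ^ 2) (h2 : U ^ 2 - 81 * Z ^ 2 = W ^ 2) :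
    Z = 0 :=
  concordant_aux Z.natAbs U Z V W rfl h1 h2

end Fermat.Agent.S51
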