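import Mathlib
import Fermat.Agent.S51.Concordant

/-!
# Rational points of `Y ^ 2 = X * (X - 9) * (X - 25)` for `S51`

A `2`-isogeny followed by the duplication formulas reduces the determination of the rational
points to `no_concordant`.
-/

set_option autoImplicit false

namespace Fermat.Agent.S51

/-- There are no rational numbers `u, v, w` with `u ^ 2 - v ^ 2 = 1` and `u ^ 2 - w ^ 2 = 81`. -/
theorem descent_no_rat (u v w : ℚ) (h1 : u ^ 2 - v ^ 2 = 1) (h2 : u ^ 2 - w ^ 2 = 81) : False := by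
  have hu := Rat.mul_den_eq_num u
  have hv := Rat.mul_den_eq_num v
  have hw := Rat.mul_den_eq_num w
  have e1 : (u.num * v.den * w.den) ^ 2 - ((u.den : ℤ) * v.den * w.den) ^ 2 =
      (v.num * u.den * w.den) ^ 2 := by
    have : (((u.num * v.den * w.den) ^ 2 - ((u.den : ℤ) * v.den * w.den) ^ 2 : ℤ) : ℚ) =
        (((v.num * u.den * w.den) ^ 2 : ℤ) : ℚ) := by
      push_cast
      rw [← hu, ← hv]
      linear_combination ((u.den : ℚ) * v.den * w.den) ^ 2 * h1
    exact_mod_cast this
  have e2 : (u.num * v.den * w.den) ^ 2 - 81 * ((u.den : ℤ) * v.den * w.den) ^ 2 =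
      (w.num * u.den * v.den) ^ 2 := by
    have : (((u.num * v.den * w.den) ^ 2 - 81 * ((u.den : ℤ) * v.den * w.den) ^ 2 : ℤ) : ℚ) =
        (((w.num * u.den * v.den) ^ 2 : ℤ) : ℚ) := by
      push_cast
      rw [← hu, ← hw]
      linear_combination ((u.den : ℚ) * v.den * w.den) ^ 2 * h2
    exact_mod_cast this
  have hZ := no_concordant _ _ _ _ e1 e2
  have hud : (u.den : ℤ) ≠ 0 := Int.natCast_ne_zero.mpr u.den_nz
  have hvd : (v.den : ℤ) ≠ 0 := Int.natCast_ne_zero.mpr v.den_nz
  have hwd : (w.den : ℤ) ≠ 0 := Int.natCast_ne_zero.mpr w.den_nz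
  exact mul_ne_zero (mul_ne_zero hud hvd) hwd hZ

/-- The rational points of the elliptic curve `Y ^ 2 = X * (X - 9) * (X - 25)` are its eight
torsion points. -/
theorem rational_points_E15 (X Y : ℚ) (h : Y ^ 2 = X * (X - 9) * (X - 25)) :
    X = 0 ∨ X = 5 ∨ X = 9 ∨ X = 25 ∨ X = 45 := by
  by_cases h25 : X = 25
  · right; right; right; left; exact h25
  have hd : X - 25 ≠ 0 := sub_ne_zero.mpr h25
  obtain ⟨ξ, hξ⟩ : ∃ ξ : ℚ, ξ = X * (X - 9) / (X - 25) := ⟨_, rfl⟩
  obtain ⟨η, hη⟩ : ∃ η : ℚ, η = Y * (400 - (X - 25) ^ 2) / (X - 25) ^ 2 := ⟨_, rfl⟩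
  have hE : η ^ 2 = ξ * (ξ - 1) * (ξ - 81) := by
    rw [hξ, hη]
    field_simp
    linear_combination (400 - (X - 25) ^ 2) ^ 2 * h
  by_cases hη0 : η = 0
  · have hYX : Y * (400 - (X - 25) ^ 2) = 0 := by
      rw [hη] at hη0
      exact (div_eq_zero_iff.mp hη0).resolve_right (pow_ne_zero 2 hd)
    rcases mul_eq_zero.mp hYX with hY | hX
    · rw [hY] at h
      have h0 : X * (X - 9) * (X - 25) = 0 := by rw [← h]; ring
      rcases mul_eq_zero.mp h0 with h' | h'
      · rcases mul_eq_zero.mp h' with h'' | h''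
        · left; exact h''
        · right; right; left; linarith
      · exact absurd h' hd
    · have h0 : (X - 5) * (X - 45) = 0 := by linear_combination -hX
      rcases mul_eq_zero.mp h0 with h' | h'
      · right; left; linarith
      · right; right; right; right; linarith
  · exfalso
    apply descent_no_rat ((ξ ^ 2 - 81) / (2 * η)) (((ξ - 1) ^ 2 + 80) / (2 * η))
      (((ξ - 81) ^ 2 - 6480) / (2 * η))
    · field_simp
      linear_combination (-4 : ℚ) * hE
    · field_simp
      linear_combination (-324 : ℚ) * hE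

end Fermat.Agent.S51
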