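import Mathlib

set_option autoImplicit false

/-!
# S51: the explicit model of `X₀(15)`

Pure field algebra.  For a point `T` of order 3 with `x`-coordinate `x₀` and a point `Q` of order 5
(with `Q = (x₁, y₁)`, `2Q = (x₂, y₂)`) on `y² = x³ + A x + B`, the quantities
`d = -y₂ / y₁` and `e = (x₂ - x₁) / (x₀ - x₁)` satisfy `e d² + 3 (e-1)² d - e (e-1)³ = 0`,
and `X = (4e-3)(e+3)/(e-1)`, `Y = 4e(2-e)(2ed+3(e-1)²)/(e-1)³` is a point of
`Y² = X (X - 9) (X - 25)` invariant under `(d, e) ↦ (-1/d, e/(e-1))`.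
-/

namespace Fermat.Agent.S51

section

variable {K : Type*} [Field K]

/-- The `X`-coordinate on `X₀(15)`. -/
noncomputable def modX (e : K) : K := (4 * e - 3) * (e + 3) / (e - 1)

/-- The `Y`-coordinate on `X₀(15)`. -/
noncomputable def modY (d e : K) : K :=
  4 * e * (2 - e) * (2 * e * d + 3 * (e - 1) ^ 2) / (e - 1) ^ 3

/-- The `X₀(5)` parameter. -/
noncomputable def modT (d : K) : K := d - 1 / d - 11

/-- The relation cutting out (a double cover of) `X₀(15)`. -/
def ModRel (d e : K) : Prop := e * d ^ 2 + 3 * (e - 1) ^ 2 * d - e * (e - 1) ^ 3 = 0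

theorem modT_inv {d : K} (hd : d ≠ 0) : modT (-1 / d) = modT d := by
  unfold modT
  field_simp
  ring

theorem modX_inv {e : K} (he : e - 1 ≠ 0) : modX (e / (e - 1)) = modX e := by
  unfold modX
  have h1 : e / (e - 1) - 1 = 1 / (e - 1) := by field_simp; ring
  rw [h1]
  field_simp
  ring

theorem modY_inv {d e : K} (hd : d ≠ 0) (he : e - 1 ≠ 0) (h : ModRel d e) :
    modY (-1 / d) (e / (e - 1)) = modY d e := by
  unfold modY
  unfold ModRel at h
  have h1 : e / (e - 1) - 1 = 1 / (e - 1) := by field_simp; ring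
  rw [h1]
  field_simp
  linear_combination (-8 * e * (2 - e)) * h

theorem modRel_inv {d e : K} (hd : d ≠ 0) (he : e - 1 ≠ 0) (h : ModRel d e) :
    ModRel (-1 / d) (e / (e - 1)) := by
  unfold ModRel at h ⊢
  have h1 : e / (e - 1) - 1 = 1 / (e - 1) := by field_simp; ring
  rw [h1]
  field_simp
  linear_combination (-(e - 1) ^ 0) * h

theorem modY_sq {d e : K} (he : e - 1 ≠ 0) (h : ModRel d e) :
    modY d e ^ 2 = modX e * (modX e - 9) * (modX e - 25) := by
  unfold modY modX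
  unfold ModRel at h
  field_simp
  linear_combination (64 * e ^ 3 * (2 - e) ^ 2) * h

end

section

variable {K : Type*} [Field K] [CharZero K]

theorem modT_of_modX {d e : K} (hd : d ≠ 0) (he1 : e - 1 ≠ 0) (he0 : e ≠ 0) (h : ModRel d e)
    (ht : modT d ≠ 0)
    (hX : modX e = 0 ∨ modX e = 5 ∨ modX e = 9 ∨ modX e = 25 ∨ modX e = 45) :
    modT d = -10 ∨ modT d = -40 ∨ modT d = -25 / 2 ∨ modT d = -25 / 8 := by
  unfold ModRel at h
  have hT0 : d ^ 2 - 11 * d - 1 ≠ 0 := by
    intro h0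
    apply ht
    unfold modT
    field_simp
    linear_combination h0
  rcases hX with hX | hX | hX | hX | hX
  · -- X = 0 : e = 3/4 or e = -3
    right; right; right
    have h1 : (4 * e - 3) * (e + 3) = 0 := by
      unfold modX at hX
      field_simp at hX
      linear_combination hX
    rcases mul_eq_zero.mp h1 with h2 | h2
    · have he : e = 3 / 4 := by linear_combination h2 / 4
      subst he
      have h3 : (8 * d + 1) ^ 2 = 0 := by linear_combination (256 / 3 : K) * h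
      have h4 : d = -1 / 8 := by
        have := pow_eq_zero_iff (n := 2) (by norm_num) |>.mp h3
        linear_combination this / 8
      subst h4
      unfold modT
      norm_num
    · have he : e = -3 := by linear_combination h2
      subst he
      have h3 : (d - 8) ^ 2 = 0 := by linear_combination (-1 / 3 : K) * h
      have h4 : d = 8 := by
        have := pow_eq_zero_iff (n := 2) (by norm_num) |>.mp h3
        linear_combination this
      subst h4
      unfold modT
      norm_num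
  · -- X = 5
    left
    have he : e ^ 2 + e - 1 = 0 := by
      unfold modX at hX
      field_simp at hX
      linear_combination hX / 4
    have hF : (d ^ 2 - d - 1) * (d ^ 2 - 11 * d - 1) = 0 := by
      linear_combination (-(d^4 + 3*d^3*e - 15*d^3 - d^2*e^3 + 3*d^2*e^2 - 31*d^2*e + 54*d^2
        + 9*d*e^3 - 21*d*e^2 + 51*d*e - 51*d - 13*e^3 + 31*e^2 - 20*e + 1)) * he
        + (-(-d^2*e - d^2 + 9*d*e + 15*d - 13*e - 21)) * h
    rcases mul_eq_zero.mp hF with h2 | h2
    · unfold modT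
      field_simp
      linear_combination h2
    · exact absurd h2 hT0
  · -- X = 9
    exfalso
    have h1 : 4 * e ^ 2 = 0 := by
      unfold modX at hX
      field_simp at hX
      linear_combination hX
    have : e ^ 2 = 0 := by linear_combination h1 / 4
    exact he0 (pow_eq_zero_iff (n := 2) (by norm_num) |>.mp this)
  · -- X = 25
    right; right; left
    have h1 : (e - 2) ^ 2 = 0 := by
      unfold modX at hX
      field_simp at hX
      linear_combination hX / 4
    have he : e = 2 := by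
      have := pow_eq_zero_iff (n := 2) (by norm_num) |>.mp h1
      linear_combination this
    subst he
    have h3 : (2 * d - 1) * (d + 2) = 0 := by linear_combination h
    rcases mul_eq_zero.mp h3 with h4 | h4
    · have : d = 1 / 2 := by linear_combination h4 / 2
      subst this
      unfold modT
      norm_num
    · have : d = -2 := by linear_combination h4
      subst this
      unfold modT
      norm_num
  · -- X = 45
    right; left
    have he : e ^ 2 - 9 * e + 9 = 0 := by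
      unfold modX at hX
      field_simp at hX
      linear_combination hX / 4
    have hF : (d ^ 2 - 11 * d - 1) * (d ^ 2 + 29 * d - 1) = 0 := by
      linear_combination ((d^4 + 3*d^3*e + 15*d^3 - d^2*e^3 + 3*d^2*e^2 + 69*d^2*e - 376*d^2
        - 21*d*e^3 + 39*d*e^2 - 1149*d*e + 969*d + 377*e^3 - 699*e^2 + 330*e + 1) / 9) * he
        + ((-d^2*e + 9*d^2 - 21*d*e + 165*d + 377*e - 2961) / 9) * h
    rcases mul_eq_zero.mp hF with h2 | h2
    · exact absurd h2 hT0
    · unfold modT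
      field_simp
      linear_combination h2

theorem modRel_of_torsion {x₀ x₁ y₁ x₂ y₂ lam mu A B : K}
    (hx1 : 3 * x₁ = 2 * lam ^ 2 - mu ^ 2) (hx2 : 3 * x₂ = 2 * mu ^ 2 - lam ^ 2)
    (hy1 : 2 * y₁ = (lam ^ 2 - mu ^ 2) * (lam + mu))
    (hy2 : 2 * y₂ = (lam ^ 2 - mu ^ 2) * (lam - mu))
    (hA : A = (lam ^ 2 - mu ^ 2) * lam * (lam + mu) - 3 * x₁ ^ 2)
    (hB : y₁ ^ 2 = x₁ ^ 3 + A * x₁ + B)
    (hψ : 3 * x₀ ^ 4 + 6 * A * x₀ ^ 2 + 12 * B * x₀ - A ^ 2 = 0)
    (hy1ne : y₁ ≠ 0) (h01 : x₀ ≠ x₁) :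
    ModRel (-y₂ / y₁) ((x₂ - x₁) / (x₀ - x₁)) := by
  have hD : x₀ - x₁ ≠ 0 := sub_ne_zero.mpr h01
  have key : (x₂ - x₁) * (x₀ - x₁) ^ 3 * y₂ ^ 2
      - 3 * ((x₂ - x₁) - (x₀ - x₁)) ^ 2 * (x₀ - x₁) ^ 2 * y₂ * y₁
      - (x₂ - x₁) * ((x₂ - x₁) - (x₀ - x₁)) ^ 3 * y₁ ^ 2 = 0 := by
    obtain rfl : x₁ = (2 * lam ^ 2 - mu ^ 2) / 3 := by linear_combination hx1 / 3
    obtain rfl : x₂ = (2 * mu ^ 2 - lam ^ 2) / 3 := by linear_combination hx2 / 3
    obtain rfl : y₁ = (lam ^ 2 - mu ^ 2) * (lam + mu) / 2 := by linear_combination hy1 / 2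
    obtain rfl : y₂ = (lam ^ 2 - mu ^ 2) * (lam - mu) / 2 := by linear_combination hy2 / 2
    subst hA
    obtain rfl : B = ((lam ^ 2 - mu ^ 2) * (lam + mu) / 2) ^ 2 - ((2 * lam ^ 2 - mu ^ 2) / 3) ^ 3
        - ((lam ^ 2 - mu ^ 2) * lam * (lam + mu) - 3 * ((2 * lam ^ 2 - mu ^ 2) / 3) ^ 2)
          * ((2 * lam ^ 2 - mu ^ 2) / 3) := by linear_combination -hB
    linear_combination (-(lam ^ 2 - mu ^ 2) ^ 3 / 4) * hψ
  unfold ModRel
  field_simp
  linear_combination key

/-- The discriminant and the `j`-invariant in terms of the `X₀(5)`-parameter. -/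
theorem j_relation_of_torsion {x₁ y₁ y₂ lam mu A B : K}
    (hx1 : 3 * x₁ = 2 * lam ^ 2 - mu ^ 2)
    (hy1 : 2 * y₁ = (lam ^ 2 - mu ^ 2) * (lam + mu))
    (hy2 : 2 * y₂ = (lam ^ 2 - mu ^ 2) * (lam - mu))
    (hA : A = (lam ^ 2 - mu ^ 2) * lam * (lam + mu) - 3 * x₁ ^ 2)
    (hB : y₁ ^ 2 = x₁ ^ 3 + A * x₁ + B)
    (hy1ne : y₁ ≠ 0) (hy2ne : y₂ ≠ 0) :
    16 * (4 * A ^ 3 + 27 * B ^ 2) = -(lam ^ 2 - mu ^ 2) ^ 6 * modT (-y₂ / y₁) ∧
    6912 * A ^ 3 * modT (-y₂ / y₁)
      = (4 * A ^ 3 + 27 * B ^ 2) * (modT (-y₂ / y₁) ^ 2 + 10 * modT (-y₂ / y₁) + 5) ^ 3 := by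
  have hs : lam ^ 2 - mu ^ 2 ≠ 0 := by
    intro h; apply hy1ne
    have : 2 * y₁ = 0 := by rw [hy1, h]; ring
    linear_combination this / 2
  have hlm : lam + mu ≠ 0 := by
    intro h; apply hy1ne
    have : 2 * y₁ = 0 := by rw [hy1, h]; ring
    linear_combination this / 2
  have hlm' : lam - mu ≠ 0 := by
    intro h; apply hy2ne
    have : 2 * y₂ = 0 := by rw [hy2, h]; ring
    linear_combination this / 2
  have ht : modT (-y₂ / y₁) = 4 * lam * mu / (lam ^ 2 - mu ^ 2) - 11 := by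
    have hy1' : y₁ = (lam ^ 2 - mu ^ 2) * (lam + mu) / 2 := by linear_combination hy1 / 2
    have hy2' : y₂ = (lam ^ 2 - mu ^ 2) * (lam - mu) / 2 := by linear_combination hy2 / 2
    unfold modT
    rw [hy1', hy2']
    field_simp
    ring
  rw [ht]
  obtain rfl : x₁ = (2 * lam ^ 2 - mu ^ 2) / 3 := by linear_combination hx1 / 3
  obtain rfl : y₁ = (lam ^ 2 - mu ^ 2) * (lam + mu) / 2 := by linear_combination hy1 / 2
  subst hA
  obtain rfl : B = ((lam ^ 2 - mu ^ 2) * (lam + mu) / 2) ^ 2 - ((2 * lam ^ 2 - mu ^ 2) / 3) ^ 3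
      - ((lam ^ 2 - mu ^ 2) * lam * (lam + mu) - 3 * ((2 * lam ^ 2 - mu ^ 2) / 3) ^ 2)
        * ((2 * lam ^ 2 - mu ^ 2) / 3) := by linear_combination -hB
  constructor
  · field_simp
    ring
  · field_simp
    ring

end

end Fermat.Agent.S51
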