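import Mathlib

set_option autoImplicit false

namespace Fermat.Agent.S51

open WeierstrassCurve Polynomial

section

variable {K : Type*} [Field K] [CharZero K] [DecidableEq K] (E : WeierstrassCurve.Affine K)

omit [CharZero K] in
theorem torsion3_three_smul (P : E.Point) : (3 : ℤ) • P = P + P + P := by
  rw [show (3 : ℤ) = 2 + 1 by norm_num, add_smul, two_smul, one_smul]

omit [CharZero K] [DecidableEq K] in
theorem torsion3_some_eq {x y x' y' : K} (h : E.Nonsingular x y) (h' : E.Nonsingular x' y')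
    (hx : x = x') (hy : y = y') :
    (Affine.Point.some x y h : E.Point) = Affine.Point.some x' y' h' := by
  subst hx; subst hy; rfl

/-- the doubling of a point with `y ≠ 0` on a short Weierstrass curve. -/
theorem torsion3_double (h₁ : E.a₁ = 0) (h₂ : E.a₂ = 0) (h₃ : E.a₃ = 0)
    {x y : K} (h : E.Nonsingular x y) (hy : y ≠ 0) :
    ∃ h' : E.Nonsingular (((3 * x ^ 2 + E.a₄) / (2 * y)) ^ 2 - 2 * x)
        (-(((3 * x ^ 2 + E.a₄) / (2 * y)) * ((((3 * x ^ 2 + E.a₄) / (2 * y)) ^ 2 - 2 * x) - x)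
          + y)),
      (Affine.Point.some x y h : E.Point) + Affine.Point.some x y h = Affine.Point.some _ _ h' := by
  have hyn : y ≠ E.negY x y := by
    intro h0
    simp only [Affine.negY, h₁, h₃] at h0
    apply hy
    have h2 : (2 : K) * y = 0 := by linear_combination h0
    rcases mul_eq_zero.mp h2 with h2 | h2
    · exact absurd h2 two_ne_zero
    · exact h2
  have hsl : E.slope x x y y = (3 * x ^ 2 + E.a₄) / (2 * y) := by
    rw [Affine.slope_of_Y_ne rfl hyn]
    simp only [Affine.negY, h₁, h₂, h₃]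
    congr 1 <;> ring
  have hX : E.addX x x (E.slope x x y y) = ((3 * x ^ 2 + E.a₄) / (2 * y)) ^ 2 - 2 * x := by
    simp only [Affine.addX, h₁, h₂, hsl]
    ring
  have hY : E.addY x x y (E.slope x x y y) =
      -(((3 * x ^ 2 + E.a₄) / (2 * y)) * ((((3 * x ^ 2 + E.a₄) / (2 * y)) ^ 2 - 2 * x) - x)
          + y) := by
    simp only [Affine.addY, Affine.negAddY, Affine.negY, Affine.addX, h₁, h₂, h₃, hsl]
    ring
  have hns := Affine.nonsingular_add h h fun hxy => hyn hxy.right
  rw [hX, hY] at hns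
  refine ⟨hns, ?_⟩
  rw [Affine.Point.add_self_of_Y_ne hyn]
  exact torsion3_some_eq E _ _ hX hY

omit [CharZero K] in
/-- a point with `y = 0` has order two. -/
theorem torsion3_double_zero (h₁ : E.a₁ = 0) (h₃ : E.a₃ = 0)
    {x : K} (h : E.Nonsingular x 0) :
    (Affine.Point.some x 0 h : E.Point) + Affine.Point.some x 0 h = 0 := by
  apply Affine.Point.add_self_of_Y_eq
  simp only [Affine.negY, h₁, h₃]
  ring

omit [CharZero K] [DecidableEq K] in
theorem torsion3_equation (h₁ : E.a₁ = 0) (h₂ : E.a₂ = 0) (h₃ : E.a₃ = 0)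
    {x y : K} (h : E.Nonsingular x y) : y ^ 2 = x ^ 3 + E.a₄ * x + E.a₆ := by
  have eqn := (Affine.equation_iff ..).mp h.1
  simp only [h₁, h₂, h₃] at eqn
  linear_combination eqn

/-- T1: a nonzero 3-torsion point of a short Weierstrass curve has x-coordinate a root of the
3-division polynomial. -/
theorem three_torsion_x (h₁ : E.a₁ = 0) (h₂ : E.a₂ = 0) (h₃ : E.a₃ = 0)
    {P : E.Point} (hP : P ≠ 0) (h3 : (3 : ℤ) • P = 0) :
    ∃ (x y : K) (h : E.Nonsingular x y), P = .some x y h ∧
      3 * x ^ 4 + 6 * E.a₄ * x ^ 2 + 12 * E.a₆ * x - E.a₄ ^ 2 = 0 := by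
  rcases P with _ | ⟨x, y, h⟩
  · exact absurd rfl hP
  refine ⟨x, y, h, rfl, ?_⟩
  rw [torsion3_three_smul] at h3
  have hneg : Affine.Point.some x y h + Affine.Point.some x y h = -(Affine.Point.some x y h) :=
    eq_neg_of_add_eq_zero_left h3
  by_cases hy : y = 0
  · subst hy
    rw [torsion3_double_zero E h₁ h₃ h] at hneg
    exact absurd (neg_eq_zero.mp hneg.symm) hP
  · obtain ⟨h', hd⟩ := torsion3_double E h₁ h₂ h₃ h hy
    rw [hd, Affine.Point.neg_some] at hneg
    injection hneg with hx hy'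
    have eqn := torsion3_equation E h₁ h₂ h₃ h
    field_simp at hx
    linear_combination (-12 * x) * eqn - hx

/-- the `3`-division polynomial of a short Weierstrass curve. -/
noncomputable def torsion3Psi : K[X] :=
  C 3 * X ^ 4 + C (6 * E.a₄) * X ^ 2 + C (12 * E.a₆) * X - C (E.a₄ ^ 2)

omit [DecidableEq K] in
theorem torsion3Psi_natDegree : (torsion3Psi E).natDegree = 4 := by
  unfold torsion3Psi
  compute_degree!

omit [DecidableEq K] in
theorem torsion3Psi_ne_zero : torsion3Psi E ≠ 0 := fun h => by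
  have h4 := torsion3Psi_natDegree E
  rw [h] at h4
  simp at h4

omit [CharZero K] [DecidableEq K] in
theorem torsion3Psi_eval (x : K) : (torsion3Psi E).eval x =
    3 * x ^ 4 + 6 * E.a₄ * x ^ 2 + 12 * E.a₆ * x - E.a₄ ^ 2 := by
  simp [torsion3Psi]

/-- The coordinates of a point. -/
def torsion3Coord : E.Point → Option (K × K)
  | .zero => none
  | .some x y _ => some (x, y)

omit [CharZero K] [DecidableEq K] in
theorem torsion3Coord_injective : Function.Injective (torsion3Coord E) := by
  rintro (_ | ⟨x, y, h⟩) (_ | ⟨x', y', h'⟩) hh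
  · rfl
  · simp [torsion3Coord] at hh
  · simp [torsion3Coord] at hh
  · simp only [torsion3Coord, Option.some.injEq, Prod.mk.injEq] at hh
    exact torsion3_some_eq E h h' hh.1 hh.2

omit [CharZero K] [DecidableEq K] in
/-- A set of points whose `x`-coordinates are roots of a nonzero polynomial of degree `≤ n`
has at most `2 n + 1` elements. -/
theorem torsion3_finite_of_roots (h₁ : E.a₁ = 0) (h₂ : E.a₂ = 0) (h₃ : E.a₃ = 0)
    (p : K[X]) (hp : p ≠ 0) (n : ℕ) (hn : p.natDegree ≤ n) (S : Set E.Point)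
    (hS : ∀ P ∈ S, P ≠ 0 → ∃ (x y : K) (h : E.Nonsingular x y),
      P = Affine.Point.some x y h ∧ p.eval x = 0) :
    S.Finite ∧ S.ncard ≤ 2 * n + 1 := by
  classical
  set R : Finset K := p.roots.toFinset with hR
  set Ys : K → Finset K := fun x => (X ^ 2 - C (x ^ 3 + E.a₄ * x + E.a₆) : K[X]).roots.toFinset
    with hYs
  set T : Finset (K × K) := R.biUnion (fun x => (Ys x).image (fun y => (x, y))) with hT
  set F : Finset (Option (K × K)) := insert none (T.image some) with hF
  have hsub : torsion3Coord E '' S ⊆ (F : Set (Option (K × K))) := by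
    rintro _ ⟨P, hPS, rfl⟩
    by_cases hP0 : P = 0
    · subst hP0
      simp [hF, torsion3Coord]
    · obtain ⟨x, y, h, rfl, hx⟩ := hS P hPS hP0
      have hmem : (x, y) ∈ T := by
        rw [hT, Finset.mem_biUnion]
        refine ⟨x, ?_, ?_⟩
        · rw [hR, Multiset.mem_toFinset, Polynomial.mem_roots hp]
          exact hx
        · rw [Finset.mem_image]
          refine ⟨y, ?_, rfl⟩
          rw [hYs]
          simp only [Multiset.mem_toFinset]
          rw [Polynomial.mem_roots (X_pow_sub_C_ne_zero (by norm_num) _)]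
          simp only [IsRoot, eval_sub, eval_pow, eval_X, eval_C]
          rw [torsion3_equation E h₁ h₂ h₃ h]
          ring
      simp only [hF, torsion3Coord, Finset.coe_insert, Finset.coe_image, Set.mem_insert_iff,
        Set.mem_image, Finset.mem_coe]
      exact Or.inr ⟨(x, y), hmem, rfl⟩
  have hRcard : R.card ≤ n :=
    (Multiset.toFinset_card_le _).trans ((Polynomial.card_roots' p).trans hn)
  have hYcard : ∀ x, (Ys x).card ≤ 2 := fun x => by
    refine (Multiset.toFinset_card_le _).trans ((Polynomial.card_roots' _).trans ?_)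
    rw [natDegree_X_pow_sub_C]
  have hTcard : T.card ≤ 2 * n := by
    calc T.card ≤ ∑ x ∈ R, ((Ys x).image (fun y => (x, y))).card := Finset.card_biUnion_le
      _ ≤ ∑ _x ∈ R, 2 := Finset.sum_le_sum fun x _ => Finset.card_image_le.trans (hYcard x)
      _ = R.card * 2 := by rw [Finset.sum_const, smul_eq_mul]
      _ ≤ 2 * n := by omega
  have hFcard : F.card ≤ 2 * n + 1 := by
    calc F.card ≤ (T.image some).card + 1 := Finset.card_insert_le _ _
      _ ≤ T.card + 1 := Nat.add_le_add_right Finset.card_image_le 1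
      _ ≤ 2 * n + 1 := Nat.add_le_add_right hTcard 1
  have hfin : (torsion3Coord E '' S).Finite := F.finite_toSet.subset hsub
  refine ⟨hfin.of_finite_image (torsion3Coord_injective E).injOn, ?_⟩
  rw [← Set.ncard_image_of_injective S (torsion3Coord_injective E)]
  calc (torsion3Coord E '' S).ncard ≤ (F : Set (Option (K × K))).ncard :=
        Set.ncard_le_ncard hsub F.finite_toSet
    _ = F.card := Set.ncard_coe_finset F
    _ ≤ 2 * n + 1 := hFcard

/-- T3a: at most 9 points killed by 3. -/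
theorem three_torsion_finite (h₁ : E.a₁ = 0) (h₂ : E.a₂ = 0) (h₃ : E.a₃ = 0) :
    {P : E.Point | (3 : ℤ) • P = 0}.Finite ∧ {P : E.Point | (3 : ℤ) • P = 0}.ncard ≤ 9 := by
  refine torsion3_finite_of_roots E h₁ h₂ h₃ (torsion3Psi E) (torsion3Psi_ne_zero E) 4
    (torsion3Psi_natDegree E).le _ ?_
  intro P hP hP0
  obtain ⟨x, y, h, rfl, hx⟩ := three_torsion_x E h₁ h₂ h₃ hP0 hP
  exact ⟨x, y, h, rfl, by rw [torsion3Psi_eval]; exact hx⟩

/-- T4a: existence of a nonzero 3-torsion point over an algebraically closed field. -/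
theorem exists_three_torsion [IsAlgClosed K] (h₁ : E.a₁ = 0) (h₂ : E.a₂ = 0) (h₃ : E.a₃ = 0)
    (hΔ : 4 * E.a₄ ^ 3 + 27 * E.a₆ ^ 2 ≠ 0) :
    ∃ P : E.Point, P ≠ 0 ∧ (3 : ℤ) • P = 0 := by
  obtain ⟨x, hx⟩ := IsAlgClosed.exists_root (torsion3Psi E) (by
    rw [Polynomial.degree_eq_natDegree (torsion3Psi_ne_zero E), torsion3Psi_natDegree]
    norm_num)
  rw [IsRoot, torsion3Psi_eval] at hx
  have hf : x ^ 3 + E.a₄ * x + E.a₆ ≠ 0 := by
    intro hf
    have h1 : (3 * x ^ 2 + E.a₄) ^ 2 = 0 := by linear_combination 12 * x * hf - hx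
    have h2 : 3 * x ^ 2 + E.a₄ = 0 := by simpa using h1
    apply hΔ
    have hA : E.a₄ = -3 * x ^ 2 := by linear_combination h2
    have hB : E.a₆ = 2 * x ^ 3 := by linear_combination hf - x * h2
    rw [hA, hB]
    ring
  obtain ⟨y, hy⟩ := IsAlgClosed.exists_pow_nat_eq (x ^ 3 + E.a₄ * x + E.a₆) (by norm_num : 0 < 2)
  have hy0 : y ≠ 0 := by
    rintro rfl
    apply hf
    rw [← hy]
    ring
  have hns : E.Nonsingular x y := by
    rw [Affine.nonsingular_iff, Affine.equation_iff]
    refine ⟨by simp only [h₁, h₂, h₃]; linear_combination hy, Or.inr ?_⟩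
    simp only [h₁, h₃]
    intro h0
    apply hy0
    have h2 : (2 : K) * y = 0 := by linear_combination h0
    simpa using h2
  refine ⟨Affine.Point.some x y hns, Affine.Point.some_ne_zero _, ?_⟩
  obtain ⟨h', hd⟩ := torsion3_double E h₁ h₂ h₃ hns hy0
  have hl : ((3 * x ^ 2 + E.a₄) / (2 * y)) ^ 2 = 3 * x := by
    field_simp
    linear_combination (-12 * x) * hy - hx
  rw [torsion3_three_smul, hd]
  apply Affine.Point.add_of_Y_eq
  · rw [hl]
    ring
  · simp only [Affine.negY, h₁, h₃]
    rw [hl]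
    ring

end

end Fermat.Agent.S51
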