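import Mathlib

set_option autoImplicit false

namespace Fermat.Agent.S51

open WeierstrassCurve Polynomial

section

variable {K : Type*} [Field K] [CharZero K] [DecidableEq K] (E : WeierstrassCurve.Affine K)

omit [CharZero K] [DecidableEq K] in
theorem t5_equation_iff (h₁ : E.a₁ = 0) (h₂ : E.a₂ = 0) (h₃ : E.a₃ = 0) (x y : K) :
    E.Equation x y ↔ y ^ 2 = x ^ 3 + E.a₄ * x + E.a₆ := by
  rw [Affine.equation_iff, h₁, h₂, h₃]
  simp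

omit [DecidableEq K] in
theorem t5_nonsingular_of_ne (h₁ : E.a₁ = 0) (h₂ : E.a₂ = 0) (h₃ : E.a₃ = 0) {x y : K}
    (he : y ^ 2 = x ^ 3 + E.a₄ * x + E.a₆) (hy : y ≠ 0) : E.Nonsingular x y := by
  rw [Affine.nonsingular_iff, t5_equation_iff E h₁ h₂ h₃, h₁, h₃]
  refine ⟨he, Or.inr ?_⟩
  intro h
  apply hy
  have : 2 * y = 0 := by linear_combination h
  simpa using this

omit [CharZero K] [DecidableEq K] in
theorem t5_negY (h₁ : E.a₁ = 0) (h₃ : E.a₃ = 0) (x y : K) : E.negY x y = -y := by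
  simp [Affine.negY, h₁, h₃]

omit [CharZero K] [DecidableEq K] in
theorem t5_some_congr {x y x' y' : K} (n : E.Nonsingular x y) (hx : x = x') (hy : y = y') :
    ∃ n' : E.Nonsingular x' y', Affine.Point.some x y n = Affine.Point.some x' y' n' := by
  subst hx hy
  exact ⟨n, rfl⟩

/-- doubling a point with `y ≠ 0` on a short Weierstrass curve -/
theorem t5_double (h₁ : E.a₁ = 0) (h₂ : E.a₂ = 0) (h₃ : E.a₃ = 0) {x y : K}
    (n : E.Nonsingular x y) (hy : y ≠ 0) (l x' y' : K) (hl : l * (2 * y) = 3 * x ^ 2 + E.a₄)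
    (hx' : x' = l ^ 2 - 2 * x) (hy' : y' = l * (x - x') - y) :
    ∃ n' : E.Nonsingular x' y',
      Affine.Point.some x y n + Affine.Point.some x y n = Affine.Point.some x' y' n' := by
  have h2y : (2 : K) * y ≠ 0 := mul_ne_zero two_ne_zero hy
  have hne : y ≠ E.negY x y := by
    rw [t5_negY E h₁ h₃]
    intro h
    apply hy
    have : 2 * y = 0 := by linear_combination h
    simpa using this
  rw [Affine.Point.add_self_of_Y_ne hne]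
  have hsl : E.slope x x y y = l := by
    rw [Affine.slope_of_Y_ne rfl hne, t5_negY E h₁ h₃, h₁, h₂, eq_comm]
    rw [eq_div_iff (by intro h; apply h2y; linear_combination h)]
    linear_combination hl
  apply t5_some_congr
  · rw [hsl, hx']
    simp [Affine.addX, h₁, h₂]
    ring
  · rw [hsl, hy', hx']
    simp [Affine.addY, Affine.negAddY, Affine.addX, Affine.negY, h₁, h₂, h₃]
    ring

omit [CharZero K] in
/-- doubling a point with `y = 0` on a short Weierstrass curve -/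
theorem t5_double_zero (h₁ : E.a₁ = 0) (h₃ : E.a₃ = 0) {x y : K}
    (n : E.Nonsingular x y) (hy : y = 0) :
    Affine.Point.some x y n + Affine.Point.some x y n = 0 := by
  apply Affine.Point.add_self_of_Y_eq
  rw [t5_negY E h₁ h₃, hy, neg_zero]

omit [CharZero K] in
/-- adding two points with different `x` on a short Weierstrass curve -/
theorem t5_add (h₁ : E.a₁ = 0) (h₂ : E.a₂ = 0) (h₃ : E.a₃ = 0) {x₁ y₁ x₂ y₂ : K}
    (n₁ : E.Nonsingular x₁ y₁) (n₂ : E.Nonsingular x₂ y₂) (hx : x₁ ≠ x₂) (l x' y' : K)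
    (hl : l * (x₁ - x₂) = y₁ - y₂) (hx' : x' = l ^ 2 - x₁ - x₂) (hy' : y' = l * (x₁ - x') - y₁) :
    ∃ n' : E.Nonsingular x' y',
      Affine.Point.some x₁ y₁ n₁ + Affine.Point.some x₂ y₂ n₂ = Affine.Point.some x' y' n' := by
  rw [Affine.Point.add_of_X_ne hx]
  have hsl : E.slope x₁ x₂ y₁ y₂ = l := by
    rw [Affine.slope_of_X_ne hx, eq_comm, eq_div_iff (sub_ne_zero.mpr hx)]
    exact hl
  apply t5_some_congr
  · rw [hsl, hx']
    simp [Affine.addX, h₁, h₂]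
  · rw [hsl, hy', hx']
    simp [Affine.addY, Affine.negAddY, Affine.addX, Affine.negY, h₁, h₂, h₃]
    ring

/-- T2: parametrisation of a nonzero 5-torsion point `Q` and its double by the two tangent
slopes `lam` (at `Q`) and `mu` (at `2Q`). -/
theorem five_torsion_param (h₁ : E.a₁ = 0) (h₂ : E.a₂ = 0) (h₃ : E.a₃ = 0)
    {Q : E.Point} (hQ : Q ≠ 0) (h5 : (5 : ℤ) • Q = 0) :
    ∃ (x₁ y₁ x₂ y₂ : K) (n₁ : E.Nonsingular x₁ y₁) (n₂ : E.Nonsingular x₂ y₂) (lam mu : K),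
      Q = .some x₁ y₁ n₁ ∧ (2 : ℤ) • Q = .some x₂ y₂ n₂ ∧ lam ^ 2 ≠ mu ^ 2 ∧
      3 * x₁ = 2 * lam ^ 2 - mu ^ 2 ∧ 3 * x₂ = 2 * mu ^ 2 - lam ^ 2 ∧
      2 * y₁ = (lam ^ 2 - mu ^ 2) * (lam + mu) ∧ 2 * y₂ = (lam ^ 2 - mu ^ 2) * (lam - mu) ∧
      E.a₄ = (lam ^ 2 - mu ^ 2) * lam * (lam + mu) - 3 * x₁ ^ 2 ∧ y₁ ≠ 0 ∧ y₂ ≠ 0 := by
  have e5 : ∀ P : E.Point, (5 : ℤ) • P = (P + P) + (P + P) + P := fun P => by abel
  have e2 : ∀ P : E.Point, (2 : ℤ) • P = P + P := fun P => by abel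
  rcases Q with _ | ⟨x₁, y₁, n₁⟩
  · exact absurd rfl hQ
  rw [e5] at h5
  -- `y₁ ≠ 0`
  have hy₁ : y₁ ≠ 0 := by
    intro hy
    rw [t5_double_zero E h₁ h₃ n₁ hy, add_zero, zero_add] at h5
    exact hQ h5
  have h2y₁ : (2 : K) * y₁ ≠ 0 := mul_ne_zero two_ne_zero hy₁
  obtain ⟨lam, hlam⟩ : ∃ lam : K, lam * (2 * y₁) = 3 * x₁ ^ 2 + E.a₄ :=
    ⟨(3 * x₁ ^ 2 + E.a₄) / (2 * y₁), div_mul_cancel₀ _ h2y₁⟩
  obtain ⟨x₂, hx₂⟩ : ∃ x₂ : K, x₂ = lam ^ 2 - 2 * x₁ := ⟨_, rfl⟩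
  obtain ⟨y₂, hy₂⟩ : ∃ y₂ : K, y₂ = lam * (x₁ - x₂) - y₁ := ⟨_, rfl⟩
  obtain ⟨n₂, hd⟩ := t5_double E h₁ h₂ h₃ n₁ hy₁ lam x₂ y₂ hlam hx₂ hy₂
  rw [hd] at h5
  -- `y₂ ≠ 0`
  have hy₂0 : y₂ ≠ 0 := by
    intro hy
    rw [t5_double_zero E h₁ h₃ n₂ hy, zero_add] at h5
    exact hQ h5
  have h2y₂ : (2 : K) * y₂ ≠ 0 := mul_ne_zero two_ne_zero hy₂0
  obtain ⟨mu, hmu⟩ : ∃ mu : K, mu * (2 * y₂) = 3 * x₂ ^ 2 + E.a₄ :=
    ⟨(3 * x₂ ^ 2 + E.a₄) / (2 * y₂), div_mul_cancel₀ _ h2y₂⟩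
  obtain ⟨x₄, hx₄⟩ : ∃ x₄ : K, x₄ = mu ^ 2 - 2 * x₂ := ⟨_, rfl⟩
  obtain ⟨y₄, hy₄⟩ : ∃ y₄ : K, y₄ = mu * (x₂ - x₄) - y₂ := ⟨_, rfl⟩
  obtain ⟨n₄, hd4⟩ := t5_double E h₁ h₂ h₃ n₂ hy₂0 mu x₄ y₄ hmu hx₄ hy₄
  rw [hd4] at h5
  have h5' : Affine.Point.some x₄ y₄ n₄ = -Affine.Point.some x₁ y₁ n₁ :=
    eq_neg_of_add_eq_zero_left h5
  rw [Affine.Point.neg_some, Affine.Point.some.injEq, t5_negY E h₁ h₃] at h5'
  obtain ⟨hxx, hyy⟩ := h5'
  have hs : x₁ - x₂ = lam ^ 2 - mu ^ 2 := by linear_combination hx₂ - hx₄ + hxx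
  have hsum : y₁ + y₂ = lam * (x₁ - x₂) := by linear_combination hy₂
  have hdiff : y₁ - y₂ = mu * (x₁ - x₂) := by
    rw [hxx] at hy₄
    linear_combination -hy₄ + hyy
  have e1 : 2 * y₁ = (lam ^ 2 - mu ^ 2) * (lam + mu) := by
    rw [← hs]; linear_combination hsum + hdiff
  refine ⟨x₁, y₁, x₂, y₂, n₁, n₂, lam, mu, rfl, ?_, ?_, ?_, ?_, e1, ?_, ?_, hy₁, hy₂0⟩
  · rw [e2, hd]
  · intro h
    apply h2y₁
    rw [e1, h, sub_self, zero_mul]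
  · linear_combination 2 * hx₂ - hx₄ + hxx
  · linear_combination -hx₂ + 2 * hx₄ - 2 * hxx
  · rw [← hs]; linear_combination hsum - hdiff
  · linear_combination -hlam + lam * e1

/-- the `5`-division polynomial (up to the factor `256 f ^ 4` trick): its roots contain the
`x`-coordinates of all nonzero `5`-torsion points of `y ^ 2 = x ^ 3 + A x + B`. -/
noncomputable def t5_poly (A B : K) : K[X] :=
  (3 * X ^ 4 + C (6 * A) * X ^ 2 + C (12 * B) * X - C (A ^ 2)) ^ 3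
  - 32 * (3 * X ^ 2 + C A) * (3 * X ^ 4 + C (6 * A) * X ^ 2 + C (12 * B) * X - C (A ^ 2))
    * (X ^ 3 + C A * X + C B) ^ 2
  + 256 * (X ^ 3 + C A * X + C B) ^ 4

omit [CharZero K] [DecidableEq K] in
theorem t5_poly_eval (A B x : K) : (t5_poly A B).eval x =
    (3 * x ^ 4 + 6 * A * x ^ 2 + 12 * B * x - A ^ 2) ^ 3
    - 32 * (3 * x ^ 2 + A) * (3 * x ^ 4 + 6 * A * x ^ 2 + 12 * B * x - A ^ 2)
      * (x ^ 3 + A * x + B) ^ 2
    + 256 * (x ^ 3 + A * x + B) ^ 4 := by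
  simp [t5_poly]

omit [DecidableEq K] in
theorem t5_poly_natDegree (A B : K) : (t5_poly A B).natDegree = 12 := by
  unfold t5_poly
  compute_degree!

omit [DecidableEq K] in
theorem t5_poly_ne_zero (A B : K) : t5_poly A B ≠ 0 := by
  intro h
  have := t5_poly_natDegree A B
  rw [h] at this
  simp at this

/-- the `x`-coordinate of a nonzero `5`-torsion point is a root of `t5_poly`. -/
theorem t5_root_of_five_torsion (h₁ : E.a₁ = 0) (h₂ : E.a₂ = 0) (h₃ : E.a₃ = 0) {x y : K}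
    (n : E.Nonsingular x y) (h5 : (5 : ℤ) • Affine.Point.some x y n = 0) :
    (t5_poly E.a₄ E.a₆).IsRoot x := by
  obtain ⟨x₁, y₁, x₂, y₂, n₁, n₂, lam, mu, hQ, -, -, e1, -, e3, -, e5, -, -⟩ :=
    five_torsion_param E h₁ h₂ h₃ (Affine.Point.some_ne_zero n) h5
  rw [Affine.Point.some.injEq] at hQ
  obtain ⟨rfl, rfl⟩ := hQ
  have heq := (t5_equation_iff E h₁ h₂ h₃ x y).mp n.1
  rw [IsRoot.def, t5_poly_eval]
  have hx : x = (2 * lam ^ 2 - mu ^ 2) / 3 := by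
    rw [eq_div_iff (by norm_num)]; linear_combination e1
  have hy : y = (lam ^ 2 - mu ^ 2) * (lam + mu) / 2 := by
    rw [eq_div_iff (by norm_num)]; linear_combination e3
  have hB : E.a₆ = y ^ 2 - x ^ 3 - E.a₄ * x := by linear_combination -heq
  rw [hB, e5, hy, hx]
  ring

omit [CharZero K] in
/-- the coordinates of a point -/
def t5_coords : E.Point → Option (K × K)
  | .zero => none
  | .some x y _ => some (x, y)

omit [CharZero K] [DecidableEq K] in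
theorem t5_coords_injective : Function.Injective (t5_coords E) := by
  rintro (_ | ⟨x, y, h⟩) (_ | ⟨x', y', h'⟩) hPQ
  · rfl
  · simp [t5_coords] at hPQ
  · simp [t5_coords] at hPQ
  · simp only [t5_coords, Option.some.injEq, Prod.mk.injEq] at hPQ
    obtain ⟨rfl, rfl⟩ := hPQ
    rfl

/-- T3b: at most 25 points killed by 5. -/
theorem five_torsion_finite (h₁ : E.a₁ = 0) (h₂ : E.a₂ = 0) (h₃ : E.a₃ = 0) :
    {P : E.Point | (5 : ℤ) • P = 0}.Finite ∧ {P : E.Point | (5 : ℤ) • P = 0}.ncard ≤ 25 := by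
  set R : Finset K := (t5_poly E.a₄ E.a₆).roots.toFinset with hR
  set T : Finset (K × K) := R.biUnion (fun x =>
    ((X ^ 2 - C (x ^ 3 + E.a₄ * x + E.a₆) : K[X]).roots.toFinset).image (fun y => (x, y))) with hT
  have hRcard : R.card ≤ 12 :=
    (Multiset.toFinset_card_le _).trans ((card_roots' _).trans (t5_poly_natDegree _ _).le)
  have hTcard : T.card ≤ 12 * 2 := by
    refine (Finset.card_biUnion_le_card_mul _ _ 2 ?_).trans (Nat.mul_le_mul_right 2 hRcard)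
    intro x _
    refine Finset.card_image_le.trans ((Multiset.toFinset_card_le _).trans
      ((card_roots' _).trans ?_))
    compute_degree
  have hmaps : ∀ P ∈ {P : E.Point | (5 : ℤ) • P = 0},
      t5_coords E P ∈ (↑(Finset.insertNone T) : Set (Option (K × K))) := by
    rintro (_ | ⟨x, y, n⟩) hP
    · simp [t5_coords]
    · have hroot := t5_root_of_five_torsion E h₁ h₂ h₃ n hP
      have heq := (t5_equation_iff E h₁ h₂ h₃ x y).mp n.1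
      simp only [t5_coords, Finset.mem_coe, Finset.some_mem_insertNone, hT, Finset.mem_biUnion,
        Finset.mem_image, Prod.mk.injEq]
      refine ⟨x, ?_, y, ?_, rfl, rfl⟩
      · rw [hR, Multiset.mem_toFinset, mem_roots (t5_poly_ne_zero _ _)]
        exact hroot
      · rw [Multiset.mem_toFinset, mem_roots (X_pow_sub_C_ne_zero (by norm_num) _)]
        simp [heq]
  refine ⟨Set.Finite.of_injOn hmaps (t5_coords_injective E).injOn (Finset.finite_toSet _), ?_⟩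
  calc {P : E.Point | (5 : ℤ) • P = 0}.ncard
      ≤ (↑(Finset.insertNone T) : Set (Option (K × K))).ncard :=
        Set.ncard_le_ncard_of_injOn _ hmaps (t5_coords_injective E).injOn (Finset.finite_toSet _)
    _ = (Finset.insertNone T).card := Set.ncard_coe_finset _
    _ = T.card + 1 := Finset.card_insertNone T
    _ ≤ 25 := by omega

/-- T4b: existence of a nonzero 5-torsion point over an algebraically closed field. -/
theorem exists_five_torsion [IsAlgClosed K] (h₁ : E.a₁ = 0) (h₂ : E.a₂ = 0) (h₃ : E.a₃ = 0)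
    (hΔ : 4 * E.a₄ ^ 3 + 27 * E.a₆ ^ 2 ≠ 0) :
    ∃ P : E.Point, P ≠ 0 ∧ (5 : ℤ) • P = 0 := by
  obtain ⟨x₁, hx₁⟩ := IsAlgClosed.exists_root (t5_poly E.a₄ E.a₆) (by
    rw [degree_eq_natDegree (t5_poly_ne_zero _ _), t5_poly_natDegree]; norm_num)
  rw [IsRoot.def, t5_poly_eval] at hx₁
  -- `f x₁ ≠ 0`
  have hf : x₁ ^ 3 + E.a₄ * x₁ + E.a₆ ≠ 0 := by
    intro hf
    rw [hf] at hx₁
    have hpsi : 3 * x₁ ^ 4 + 6 * E.a₄ * x₁ ^ 2 + 12 * E.a₆ * x₁ - E.a₄ ^ 2 = 0 := by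
      have : (3 * x₁ ^ 4 + 6 * E.a₄ * x₁ ^ 2 + 12 * E.a₆ * x₁ - E.a₄ ^ 2) ^ 3 = 0 := by
        linear_combination hx₁
      exact (pow_eq_zero_iff (by norm_num)).mp this
    have hf' : 3 * x₁ ^ 2 + E.a₄ = 0 := by
      have : (3 * x₁ ^ 2 + E.a₄) ^ 2 = 0 := by linear_combination 12 * x₁ * hf - hpsi
      exact (pow_eq_zero_iff (by norm_num)).mp this
    apply hΔ
    linear_combination (4 * E.a₄ ^ 2 + x₁ * (6 * E.a₄ * x₁ - 9 * E.a₆)) * hf'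
      - 3 * (6 * E.a₄ * x₁ - 9 * E.a₆) * hf
  -- `psi3 x₁ ≠ 0`
  have hpsi : 3 * x₁ ^ 4 + 6 * E.a₄ * x₁ ^ 2 + 12 * E.a₆ * x₁ - E.a₄ ^ 2 ≠ 0 := by
    intro hpsi
    rw [hpsi] at hx₁
    apply hf
    have h256 : (256 : K) ≠ 0 := by norm_num
    have h1 : 256 * (x₁ ^ 3 + E.a₄ * x₁ + E.a₆) ^ 4 = 0 := by linear_combination hx₁
    exact (pow_eq_zero_iff (by norm_num)).mp ((mul_eq_zero.mp h1).resolve_left h256)
  obtain ⟨y₁, hy₁⟩ := IsAlgClosed.exists_pow_nat_eq (x₁ ^ 3 + E.a₄ * x₁ + E.a₆) (n := 2)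
    (by norm_num)
  have hy₁0 : y₁ ≠ 0 := by
    rintro rfl
    apply hf
    rw [← hy₁]
    ring
  have h2y₁ : (2 : K) * y₁ ≠ 0 := mul_ne_zero two_ne_zero hy₁0
  have n₁ : E.Nonsingular x₁ y₁ := t5_nonsingular_of_ne E h₁ h₂ h₃ hy₁ hy₁0
  obtain ⟨lam, hlam⟩ : ∃ lam : K, lam * (2 * y₁) = 3 * x₁ ^ 2 + E.a₄ :=
    ⟨(3 * x₁ ^ 2 + E.a₄) / (2 * y₁), div_mul_cancel₀ _ h2y₁⟩
  obtain ⟨x₂, hx₂⟩ : ∃ x₂ : K, x₂ = lam ^ 2 - 2 * x₁ := ⟨_, rfl⟩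
  obtain ⟨y₂, hy₂⟩ : ∃ y₂ : K, y₂ = lam * (x₁ - x₂) - y₁ := ⟨_, rfl⟩
  obtain ⟨n₂, hd⟩ := t5_double E h₁ h₂ h₃ n₁ hy₁0 lam x₂ y₂ hlam hx₂ hy₂
  -- `s = x₁ - x₂` satisfies `4 f s = psi3`
  have hs : 4 * y₁ ^ 2 * (x₁ - x₂)
      = 3 * x₁ ^ 4 + 6 * E.a₄ * x₁ ^ 2 + 12 * E.a₆ * x₁ - E.a₄ ^ 2 := by
    rw [hx₂]
    linear_combination 12 * x₁ * hy₁ - (lam * (2 * y₁) + (3 * x₁ ^ 2 + E.a₄)) * hlam
  have hs0 : x₁ - x₂ ≠ 0 := by
    intro h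
    apply hpsi
    rw [← hs, h, mul_zero]
  have hx12 : x₁ ≠ x₂ := sub_ne_zero.mp hs0
  have key : (x₁ - x₂) ^ 3 - 4 * lam * y₁ * (x₁ - x₂) + 4 * y₁ ^ 2 = 0 := by
    rw [← hs, ← hlam, ← hy₁] at hx₁
    have h64 : (64 : K) * y₁ ^ 6 ≠ 0 := mul_ne_zero (by norm_num) (pow_ne_zero _ hy₁0)
    have h1 : 64 * y₁ ^ 6 * ((x₁ - x₂) ^ 3 - 4 * lam * y₁ * (x₁ - x₂) + 4 * y₁ ^ 2) = 0 := by
      linear_combination hx₁
    exact (mul_eq_zero.mp h1).resolve_left h64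
  -- the sum `Q + 2Q`
  obtain ⟨l, hl⟩ : ∃ l : K, l * (x₁ - x₂) = y₁ - y₂ :=
    ⟨(y₁ - y₂) / (x₁ - x₂), div_mul_cancel₀ _ hs0⟩
  obtain ⟨x₃, hx₃⟩ : ∃ x₃ : K, x₃ = l ^ 2 - x₁ - x₂ := ⟨_, rfl⟩
  obtain ⟨y₃, hy₃⟩ : ∃ y₃ : K, y₃ = l * (x₁ - x₃) - y₁ := ⟨_, rfl⟩
  obtain ⟨n₃, h3⟩ := t5_add E h₁ h₂ h₃ n₁ n₂ hx12 l x₃ y₃ hl hx₃ hy₃
  have hx32 : x₃ = x₂ := by
    have h1 : (x₁ - x₂) ^ 2 * (x₃ - x₂) = 0 := by
      rw [hx₃]
      linear_combination (l * (x₁ - x₂) + (y₁ - y₂)) * hl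
        - ((y₁ - y₂) + (2 * y₁ - lam * (x₁ - x₂))) * hy₂ - (x₁ - x₂) ^ 2 * hx₂ + key
    exact sub_eq_zero.mp ((mul_eq_zero.mp h1).resolve_left (pow_ne_zero _ hs0))
  refine ⟨Affine.Point.some x₁ y₁ n₁, Affine.Point.some_ne_zero n₁, ?_⟩
  have e5 : ∀ P : E.Point, (5 : ℤ) • P = (P + P) + (P + (P + P)) := fun P => by abel
  rw [e5, hd, h3]
  rcases Affine.Point.X_eq_iff.mp hx32 with h | h
  · exfalso
    rw [h] at h3
    exact Affine.Point.some_ne_zero n₁ (add_eq_right.mp h3)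
  · rw [h, add_neg_cancel]

end

end Fermat.Agent.S51
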