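import Mathlib
import Fermat.Prelude.Def_FLTPrelim_GaloisRep
import Fermat.Agent.S51.Galois
import Fermat.Agent.S51.Torsion3
import Fermat.Agent.S51.Torsion5

set_option autoImplicit false

/-!
# S51: rationality statements for Galois-stable lines in `E[3]` and `E[5]` (short model)
-/

namespace Fermat.Agent.S51

open WeierstrassCurve WeierstrassCurve.Affine

local notation "Qb" => AlgebraicClosure ℚ

theorem zsmul_emod_of_torsion {A : Type*} [AddCommGroup A] {T : A} {n : ℤ} (hn : n • T = 0)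
    (k : ℤ) : k • T = (k % n) • T := by
  conv_lhs => rw [← Int.emod_add_mul_ediv k n]
  rw [add_zsmul, mul_comm, mul_zsmul, hn, zsmul_zero, add_zero]

section

variable (S : Affine ℚ)

theorem short_a₁ (h₁ : S.a₁ = 0) : (S⁄Qb).a₁ = 0 := by simp [h₁]
theorem short_a₂ (h₂ : S.a₂ = 0) : (S⁄Qb).a₂ = 0 := by simp [h₂]
theorem short_a₃ (h₃ : S.a₃ = 0) : (S⁄Qb).a₃ = 0 := by simp [h₃]

theorem short_neg_some (h₁ : S.a₁ = 0) (h₃ : S.a₃ = 0) {x y : Qb} (h : (S⁄Qb).Nonsingular x y) :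
    ∃ h' : (S⁄Qb).Nonsingular x (-y), -(Affine.Point.some x y h) = Affine.Point.some x (-y) h' := by
  have e : (S⁄Qb).negY x y = -y := by
    simp [Affine.negY, h₁, h₃]
  have h' := (Affine.nonsingular_neg (W' := S⁄Qb) x y).mpr h
  rw [e] at h'
  refine ⟨h', ?_⟩
  rw [Affine.Point.neg_some]
  simp only [Affine.Point.some.injEq, true_and]
  exact e

/-- A Galois-stable line in `E[3]`: the `x`-coordinate of a generator is rational. -/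
theorem three_rational (h₁ : S.a₁ = 0) (h₂ : S.a₂ = 0) (h₃ : S.a₃ = 0)
    {T : (S⁄Qb).Point} (hT : T ≠ 0) (h3 : (3 : ℤ) • T = 0)
    (hst : ∀ σ : Qb ≃ₐ[ℚ] Qb, ∃ k : ℤ, σ • T = k • T) :
    ∃ (x₀ y₀ : Qb) (h : (S⁄Qb).Nonsingular x₀ y₀) (q : ℚ), T = .some x₀ y₀ h ∧
      3 * x₀ ^ 4 + 6 * (S⁄Qb).a₄ * x₀ ^ 2 + 12 * (S⁄Qb).a₆ * x₀ - (S⁄Qb).a₄ ^ 2 = 0 ∧
      algebraMap ℚ Qb q = x₀ := by
  obtain ⟨x, y, h, rfl, hψ⟩ := three_torsion_x (S⁄Qb) (short_a₁ S h₁) (short_a₂ S h₂)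
    (short_a₃ S h₃) hT h3
  have hfix : ∀ σ : Qb ≃ₐ[ℚ] Qb, σ x = x := by
    intro σ
    obtain ⟨k, hk⟩ := hst σ
    rw [zsmul_emod_of_torsion h3 k] at hk
    obtain ⟨h', he⟩ := smul_some σ h
    rw [he] at hk
    have hr : k % 3 = 0 ∨ k % 3 = 1 ∨ k % 3 = 2 := by omega
    rcases hr with hr | hr | hr
    · rw [hr, zero_zsmul] at hk
      exact absurd hk (Affine.Point.some_ne_zero _)
    · rw [hr, one_zsmul] at hk
      simp only [Affine.Point.some.injEq] at hk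
      exact hk.1
    · rw [hr] at hk
      have h2 : (2 : ℤ) • (Affine.Point.some x y h : (S⁄Qb).Point) = -(Affine.Point.some x y h) := by
        have : (3 : ℤ) • (Affine.Point.some x y h : (S⁄Qb).Point)
            = (2 : ℤ) • (Affine.Point.some x y h) + Affine.Point.some x y h := by
          rw [show (3 : ℤ) = 2 + 1 by norm_num, add_zsmul, one_zsmul]
        rw [h3] at this
        exact eq_neg_of_add_eq_zero_left this.symm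
      obtain ⟨h'', hn⟩ := short_neg_some S h₁ h₃ h
      rw [h2, hn] at hk
      simp only [Affine.Point.some.injEq] at hk
      exact hk.1
  obtain ⟨q, hq⟩ := exists_rat_of_fixed x hfix
  exact ⟨x, y, h, q, rfl, hψ, hq⟩

/-- A Galois-stable line in `E[5]`: the slope parametrisation and the Galois action on the
coordinates of a generator and its double. -/
theorem five_rational (h₁ : S.a₁ = 0) (h₂ : S.a₂ = 0) (h₃ : S.a₃ = 0)
    {Q : (S⁄Qb).Point} (hQ : Q ≠ 0) (h5 : (5 : ℤ) • Q = 0)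
    (hst : ∀ σ : Qb ≃ₐ[ℚ] Qb, ∃ k : ℤ, σ • Q = k • Q) :
    ∃ (x₁ y₁ x₂ y₂ : Qb) (n₁ : (S⁄Qb).Nonsingular x₁ y₁) (n₂ : (S⁄Qb).Nonsingular x₂ y₂)
      (lam mu : Qb),
      Q = .some x₁ y₁ n₁ ∧ (2 : ℤ) • Q = .some x₂ y₂ n₂ ∧ lam ^ 2 ≠ mu ^ 2 ∧
      3 * x₁ = 2 * lam ^ 2 - mu ^ 2 ∧ 3 * x₂ = 2 * mu ^ 2 - lam ^ 2 ∧
      2 * y₁ = (lam ^ 2 - mu ^ 2) * (lam + mu) ∧ 2 * y₂ = (lam ^ 2 - mu ^ 2) * (lam - mu) ∧
      (S⁄Qb).a₄ = (lam ^ 2 - mu ^ 2) * lam * (lam + mu) - 3 * x₁ ^ 2 ∧ y₁ ≠ 0 ∧ y₂ ≠ 0 ∧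
      ∀ σ : Qb ≃ₐ[ℚ] Qb,
        (σ x₁ = x₁ ∧ σ x₂ = x₂ ∧ σ (-y₂ / y₁) = -y₂ / y₁) ∨
        (σ x₁ = x₂ ∧ σ x₂ = x₁ ∧ σ (-y₂ / y₁) = -1 / (-y₂ / y₁)) := by
  obtain ⟨x₁, y₁, x₂, y₂, n₁, n₂, lam, mu, hQ1, hQ2, hlm, hx1, hx2, hy1, hy2, hA, hy1ne, hy2ne⟩ :=
    five_torsion_param (S⁄Qb) (short_a₁ S h₁) (short_a₂ S h₂) (short_a₃ S h₃) hQ h5
  refine ⟨x₁, y₁, x₂, y₂, n₁, n₂, lam, mu, hQ1, hQ2, hlm, hx1, hx2, hy1, hy2, hA, hy1ne, hy2ne,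
    fun σ => ?_⟩
  obtain ⟨k, hk⟩ := hst σ
  rw [zsmul_emod_of_torsion h5 k] at hk
  -- the action on `2 • Q`
  have hk2 : σ • ((2 : ℤ) • Q) = (2 * (k % 5)) • Q := by
    rw [smul_zsmul, hk, mul_zsmul]
  -- multiples of `Q`
  have e4 : (4 : ℤ) • Q = -Q := by
    have : (5 : ℤ) • Q = (4 : ℤ) • Q + Q := by
      rw [show (5 : ℤ) = 4 + 1 by norm_num, add_zsmul, one_zsmul]
    rw [h5] at this
    exact eq_neg_of_add_eq_zero_left this.symm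
  have e3 : (3 : ℤ) • Q = -((2 : ℤ) • Q) := by
    have : (5 : ℤ) • Q = (3 : ℤ) • Q + (2 : ℤ) • Q := by
      rw [show (5 : ℤ) = 3 + 2 by norm_num, add_zsmul]
    rw [h5] at this
    exact eq_neg_of_add_eq_zero_left this.symm
  have e6 : (6 : ℤ) • Q = Q := by
    rw [show (6 : ℤ) = 5 + 1 by norm_num, add_zsmul, one_zsmul, h5, zero_add]
  have e8 : (8 : ℤ) • Q = -((2 : ℤ) • Q) := by
    rw [show (8 : ℤ) = 5 + 3 by norm_num, add_zsmul, h5, zero_add, e3]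
  obtain ⟨m₁, hm₁⟩ := short_neg_some S h₁ h₃ n₁
  obtain ⟨m₂, hm₂⟩ := short_neg_some S h₁ h₃ n₂
  obtain ⟨s₁, hs₁⟩ := smul_some σ n₁
  obtain ⟨s₂, hs₂⟩ := smul_some σ n₂
  rw [hQ1] at hk
  rw [hQ2] at hk2
  rw [hs₁] at hk
  rw [hs₂] at hk2
  rw [← hQ1] at hk
  have hr : k % 5 = 0 ∨ k % 5 = 1 ∨ k % 5 = 2 ∨ k % 5 = 3 ∨ k % 5 = 4 := by omega
  rcases hr with hr | hr | hr | hr | hr
  · rw [hr, zero_zsmul] at hk
    exact absurd hk (Affine.Point.some_ne_zero _)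
  · rw [hr, one_zsmul, hQ1] at hk
    rw [hr, show (2 : ℤ) * 1 = 2 by norm_num, hQ2] at hk2
    simp only [Affine.Point.some.injEq] at hk hk2
    left
    refine ⟨hk.1, hk2.1, ?_⟩
    rw [map_div₀, map_neg, hk.2, hk2.2]
  · rw [hr, hQ2] at hk
    rw [hr, show (2 : ℤ) * 2 = 4 by norm_num, e4, hQ1, hm₁] at hk2
    simp only [Affine.Point.some.injEq] at hk hk2
    right
    refine ⟨hk.1, hk2.1, ?_⟩
    rw [map_div₀, map_neg, hk.2, hk2.2]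
    field_simp
  · rw [hr, e3, hQ2, hm₂] at hk
    rw [hr, show (2 : ℤ) * 3 = 6 by norm_num, e6, hQ1] at hk2
    simp only [Affine.Point.some.injEq] at hk hk2
    right
    refine ⟨hk.1, hk2.1, ?_⟩
    rw [map_div₀, map_neg, hk.2, hk2.2]
    field_simp
  · rw [hr, e4, hQ1, hm₁] at hk
    rw [hr, show (2 : ℤ) * 4 = 8 by norm_num, e8, hQ2, hm₂] at hk2
    simp only [Affine.Point.some.injEq] at hk hk2
    left
    refine ⟨hk.1, hk2.1, ?_⟩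
    rw [map_div₀, map_neg, hk.2, hk2.2]
    field_simp

end

end Fermat.Agent.S51
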