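import Mathlib
import Fermat.Agent.S05.Transport

set_option autoImplicit false

/-!
# S51: transport to the short Weierstrass model `y² = x³ - 27 c₄ x - 54 c₆`
-/

namespace Fermat.Agent.S51

open WeierstrassCurve

section

variable {F : Type*} [Field F] [CharZero F] [DecidableEq F]

/-- The change of variables `(x, y) ↦ (36 x + 3 b₂, 216 y + 108 a₁ x + 108 a₃)` to the short
Weierstrass model. -/
theorem exists_short_hom (E E' : WeierstrassCurve.Affine F)
    (h₁ : E'.a₁ = 0) (h₂ : E'.a₂ = 0) (h₃ : E'.a₃ = 0) (h₄ : E'.a₄ = -27 * E.c₄)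
    (h₆ : E'.a₆ = -54 * E.c₆) :
    ∃ Φ : E.Point →+ E'.Point, Function.Injective Φ ∧
      ∀ (x y : F) (h : E.Nonsingular x y),
        ∃ h' : E'.Nonsingular (36 * x + 3 * E.b₂) (216 * y + 108 * E.a₁ * x + 108 * E.a₃),
          Φ (.some x y h) = .some (36 * x + 3 * E.b₂) (216 * y + 108 * E.a₁ * x + 108 * E.a₃) h' := by
  obtain ⟨ψ, hinj, hψ⟩ := Fermat.Agent.S05.exists_pointHom_of_variableChange E E' 6 (3 * E.b₂)
    (3 * E.a₁) (108 * E.a₃) (by norm_num)
    (by rw [h₁]; ring)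
    (by rw [h₂, h₁]; simp only [WeierstrassCurve.b₂]; ring)
    (by rw [h₃, h₁]; ring)
    (by rw [h₄, h₃, h₂, h₁]; simp only [WeierstrassCurve.c₄, WeierstrassCurve.b₂,
          WeierstrassCurve.b₄]; ring)
    (by rw [h₆, h₄, h₃, h₂, h₁]; simp only [WeierstrassCurve.c₆, WeierstrassCurve.c₄,
          WeierstrassCurve.b₂, WeierstrassCurve.b₄, WeierstrassCurve.b₆]; ring)
  refine ⟨ψ, hinj, fun x y h => ?_⟩
  obtain ⟨h', he⟩ := hψ x y h
  have e1 : (6 : F) ^ 2 * x + 3 * E.b₂ = 36 * x + 3 * E.b₂ := by ring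
  have e2 : (6 : F) ^ 3 * y + 6 ^ 2 * (3 * E.a₁) * x + 108 * E.a₃
      = 216 * y + 108 * E.a₁ * x + 108 * E.a₃ := by ring
  have h'' : E'.Nonsingular (36 * x + 3 * E.b₂) (216 * y + 108 * E.a₁ * x + 108 * E.a₃) := by
    rw [← e1, ← e2]; exact h'
  refine ⟨h'', ?_⟩
  rw [he]
  simp only [Affine.Point.some.injEq]
  exact ⟨e1, e2⟩

/-- The inverse change of variables also induces an injective homomorphism. -/
theorem exists_short_hom_inv (E E' : WeierstrassCurve.Affine F)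
    (h₁ : E'.a₁ = 0) (h₂ : E'.a₂ = 0) (h₃ : E'.a₃ = 0) (h₄ : E'.a₄ = -27 * E.c₄)
    (h₆ : E'.a₆ = -54 * E.c₆) :
    ∃ Ψ : E'.Point →+ E.Point, Function.Injective Ψ := by
  obtain ⟨ψ, hinj, -⟩ := Fermat.Agent.S05.exists_pointHom_of_variableChange E' E (1 / 6)
    (-E.b₂ / 12) (-E.a₁ / 2) (E.a₁ * E.b₂ / 24 - E.a₃ / 2) (by norm_num)
    (by rw [h₁]; field_simp; ring)
    (by rw [h₂]; simp only [WeierstrassCurve.b₂]; field_simp; ring)
    (by rw [h₃]; field_simp; ring)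
    (by rw [h₄]; simp only [WeierstrassCurve.c₄, WeierstrassCurve.b₂,
          WeierstrassCurve.b₄]; field_simp; ring)
    (by rw [h₆]; simp only [WeierstrassCurve.c₆, WeierstrassCurve.c₄,
          WeierstrassCurve.b₂, WeierstrassCurve.b₄, WeierstrassCurve.b₆]; field_simp; ring)
  exact ⟨ψ, hinj⟩

end

end Fermat.Agent.S51
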