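import Mathlib

set_option autoImplicit false

/-!
# S51: a proper nonzero subspace of a vector space over `𝔽_p` with at most `p²` elements is a line
-/

namespace Fermat.Agent.S51

theorem exists_generator_of_card_le {p : ℕ} [Fact p.Prime] {V : Type*} [AddCommGroup V]
    [Module (ZMod p) V] [Finite V] (hcard : Nat.card V ≤ p ^ 2) (N : Submodule (ZMod p) V)
    (hbot : N ≠ ⊥) (htop : N ≠ ⊤) :
    ∃ v ∈ N, v ≠ 0 ∧ ∀ w ∈ N, ∃ c : ZMod p, c • v = w := by
  have hp : p.Prime := Fact.out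
  haveI : Module.Finite (ZMod p) V := Module.Finite.of_finite
  have h1 : Nat.card V = p ^ Module.finrank (ZMod p) V := by
    rw [Module.natCard_eq_pow_finrank (K := ZMod p) (V := V), Nat.card_zmod]
  have h2 : Module.finrank (ZMod p) V ≤ 2 := by
    rw [h1] at hcard
    exact (Nat.pow_le_pow_iff_right hp.one_lt).mp hcard
  have h3 : Module.finrank (ZMod p) N < Module.finrank (ZMod p) V := Submodule.finrank_lt htop
  obtain ⟨v, hv, hv0⟩ := Submodule.exists_mem_ne_zero_of_ne_bot hbot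
  have hv0' : (⟨v, hv⟩ : N) ≠ 0 := fun h => hv0 (congrArg Subtype.val h)
  have h4 : 0 < Module.finrank (ZMod p) N := Module.finrank_pos_iff_exists_ne_zero.mpr ⟨_, hv0'⟩
  have h5 : Module.finrank (ZMod p) N = 1 := by omega
  refine ⟨v, hv, hv0, fun w hw => ?_⟩
  obtain ⟨c, hc⟩ := (finrank_eq_one_iff_of_nonzero' (⟨v, hv⟩ : N) hv0').mp h5 ⟨w, hw⟩
  exact ⟨c, congrArg Subtype.val hc⟩

end Fermat.Agent.S51
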