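import Mathlib
import Fermat.Prelude.Def_FLTPrelim_GaloisRep
import Fermat.Agent.S51.Cyclic
import Fermat.Agent.S51.Galois

set_option autoImplicit false

/-!
# S51: a reducible mod-`p` representation with at most `p²` torsion points has a stable line
-/

namespace Fermat.Agent.S51

open WeierstrassCurve WeierstrassCurve.Affine

local notation "Qb" => AlgebraicClosure ℚ

theorem exists_stable_generator (W' : Affine ℚ) (p : ℕ) [Fact p.Prime]
    (hfin : {P : (W'⁄Qb).Point | (p : ℤ) • P = 0}.Finite)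
    (hcard : {P : (W'⁄Qb).Point | (p : ℤ) • P = 0}.ncard ≤ p ^ 2)
    (hnontriv : ∃ P : (W'⁄Qb).Point, P ≠ 0 ∧ (p : ℤ) • P = 0)
    (hirr : ¬ Affine.Point.GaloisRepIsIrreducible (K := Qb) ℚ W' p) :
    ∃ P : (W'⁄Qb).Point, P ≠ 0 ∧ (p : ℤ) • P = 0 ∧
      ∀ σ : Qb ≃ₐ[ℚ] Qb, ∃ k : ℤ, σ • P = k • P := by
  classical
  set V := Submodule.torsionBy ℤ (W'⁄Qb).Point (p : ℤ) with hV
  have hmem : ∀ P : (W'⁄Qb).Point, P ∈ V ↔ (p : ℤ) • P = 0 := fun P =>
    Submodule.mem_torsionBy_iff _ _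
  have hset : (V : Set (W'⁄Qb).Point) = {P : (W'⁄Qb).Point | (p : ℤ) • P = 0} := by
    ext P; exact hmem P
  have : Finite V := by
    have : Finite (V : Set (W'⁄Qb).Point) := by rw [hset]; exact hfin.to_subtype
    exact this
  have hcardV : Nat.card V ≤ p ^ 2 := by
    have : Nat.card V = (V : Set (W'⁄Qb).Point).ncard := rfl
    rw [this, hset]; exact hcard
  have hnt : Nontrivial V := by
    obtain ⟨P, hP0, hP⟩ := hnontriv
    refine ⟨⟨⟨P, (hmem P).mpr hP⟩, 0, ?_⟩⟩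
    intro h
    exact hP0 (congrArg Subtype.val h)
  unfold Affine.Point.GaloisRepIsIrreducible at hirr
  have hirr' : ¬ ∀ N : Submodule (ZMod p) V,
      Affine.Point.IsGaloisStable ℚ N → N = ⊥ ∨ N = ⊤ := fun h => hirr ⟨hnt, h⟩
  push Not at hirr'
  obtain ⟨N, hstab, hbot, htop⟩ := hirr'
  obtain ⟨v, hvN, hv0, hgen⟩ := exists_generator_of_card_le hcardV N hbot htop
  refine ⟨(v : (W'⁄Qb).Point), fun h => hv0 (Subtype.ext h), (hmem _).mp v.2, fun σ => ?_⟩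
  obtain ⟨c, hc⟩ := hgen (σ • v) (hstab σ v hvN)
  refine ⟨(c.val : ℤ), ?_⟩
  have h1 : c • v = (c.val : ℕ) • v := by
    conv_lhs => rw [← ZMod.natCast_zmod_val c]
    exact Nat.cast_smul_eq_nsmul (ZMod p) c.val v
  have h2 : ((σ • v : V) : (W'⁄Qb).Point) = σ • (v : (W'⁄Qb).Point) := rfl
  rw [← h2, ← hc, h1, natCast_zsmul]
  rfl
end Fermat.Agent.S51
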