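import Mathlib
import Fermat.Prelude.Def_FLTPrelim_GaloisRep
import Fermat.Prelude.Def_FLTPrelim_Modularity
import Fermat.Prelude.Def_FLTPrelim_ModularRep
import Fermat.Agent.S51.Modular
import Fermat.Agent.S51.Stable
import Fermat.Agent.S51.Rational
import Fermat.Agent.S51.Short
import Fermat.Agent.S51.Descent
import Fermat.Agent.S51.Arith

set_option autoImplicit false

/-!
# S51: assembly
-/

namespace Fermat.Agent.S51

open WeierstrassCurve WeierstrassCurve.Affine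

local notation "Qb" => AlgebraicClosure ℚ

theorem eq_zero_of_three_five {A : Type*} [AddCommGroup A] {T : A} (h3 : (3 : ℤ) • T = 0)
    (h5 : (5 : ℤ) • T = 0) : T = 0 := by
  calc T = (1 : ℤ) • T := (one_zsmul T).symm
    _ = ((3 : ℤ) + 3 - 5) • T := by norm_num
    _ = 0 := by rw [sub_zsmul, add_zsmul, h3, h5]; simp

section

variable {K : Type*} [Field K]

theorem map_modT {L : Type*} [Field L] (σ : K →+* L) (d : K) : σ (modT d) = modT (σ d) := by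
  simp [modT, map_ofNat]

theorem map_modX {L : Type*} [Field L] (σ : K →+* L) (e : K) : σ (modX e) = modX (σ e) := by
  simp [modX, map_ofNat]

theorem map_modY {L : Type*} [Field L] (σ : K →+* L) (d e : K) :
    σ (modY d e) = modY (σ d) (σ e) := by
  simp [modY, map_ofNat]

end

/-- The core contradiction on the short model: a Galois-stable point of order 3 (up to sign) and a
Galois-stable cyclic subgroup of order 5 cannot coexist on a semistable curve. -/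
theorem short_contradiction (c4 c6 D : ℤ) (hD : D ≠ 0) (hrel : 1728 * D = c4 ^ 3 - c6 ^ 2)
    (hss : ∀ p : ℕ, p.Prime → (p : ℤ) ∣ D → ¬ (p : ℤ) ∣ c4)
    (S : Affine ℚ) (h₁ : S.a₁ = 0) (h₂ : S.a₂ = 0) (h₃ : S.a₃ = 0)
    (h₄ : S.a₄ = -27 * (c4 : ℚ)) (h₆ : S.a₆ = -54 * (c6 : ℚ))
    {T : (S⁄Qb).Point} (hT : T ≠ 0) (h3 : (3 : ℤ) • T = 0)
    (hstT : ∀ σ : Qb ≃ₐ[ℚ] Qb, ∃ k : ℤ, σ • T = k • T)
    {Q : (S⁄Qb).Point} (hQ : Q ≠ 0) (h5 : (5 : ℤ) • Q = 0)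
    (hstQ : ∀ σ : Qb ≃ₐ[ℚ] Qb, ∃ k : ℤ, σ • Q = k • Q) : False := by
  obtain ⟨x₀, y₀, n₀, q₀, hT0, hψ, hq₀⟩ := three_rational S h₁ h₂ h₃ hT h3 hstT
  obtain ⟨x₁, y₁, x₂, y₂, n₁, n₂, lam, mu, hQ1, hQ2, hlm, hx1, hx2, hy1, hy2, hA, hy1ne, hy2ne,
    hσ⟩ := five_rational S h₁ h₂ h₃ hQ h5 hstQ
  -- the curve equation at `Q`
  have hB : y₁ ^ 2 = x₁ ^ 3 + (S⁄Qb).a₄ * x₁ + (S⁄Qb).a₆ := by
    have := (Affine.equation_iff (W := S⁄Qb) x₁ y₁).mp n₁.left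
    rw [short_a₁ S h₁, short_a₂ S h₂, short_a₃ S h₃] at this
    linear_combination this
  -- `x₀ ≠ x₁` and `x₀ ≠ x₂`
  have h52 : (5 : ℤ) • ((2 : ℤ) • Q) = 0 := by
    rw [smul_comm, h5, zsmul_zero]
  have h01 : x₀ ≠ x₁ := by
    intro hx
    apply hT
    apply eq_zero_of_three_five h3
    rcases Affine.Y_eq_of_X_eq n₀.left n₁.left hx with hy | hy
    · have : T = Q := by
        rw [hT0, hQ1]; simp only [Affine.Point.some.injEq]; exact ⟨hx, hy⟩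
      rw [this]; exact h5
    · have : T = -Q := by
        rw [hT0, hQ1, Affine.Point.neg_some]; simp only [Affine.Point.some.injEq]; exact ⟨hx, hy⟩
      rw [this, zsmul_neg, h5, neg_zero]
  have h02 : x₀ ≠ x₂ := by
    intro hx
    apply hT
    apply eq_zero_of_three_five h3
    rcases Affine.Y_eq_of_X_eq n₀.left n₂.left hx with hy | hy
    · have : T = (2 : ℤ) • Q := by
        rw [hT0, hQ2]; simp only [Affine.Point.some.injEq]; exact ⟨hx, hy⟩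
      rw [this]; exact h52
    · have : T = -((2 : ℤ) • Q) := by
        rw [hT0, hQ2, Affine.Point.neg_some]; simp only [Affine.Point.some.injEq]; exact ⟨hx, hy⟩
      rw [this, zsmul_neg, h52, neg_zero]
  have hD01 : x₀ - x₁ ≠ 0 := sub_ne_zero.mpr h01
  have hD02 : x₀ - x₂ ≠ 0 := sub_ne_zero.mpr h02
  have h12 : x₂ - x₁ ≠ 0 := by
    intro h
    apply hlm
    have : 3 * (x₂ - x₁) = 3 * (mu ^ 2 - lam ^ 2) := by linear_combination hx2 - hx1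
    rw [h, mul_zero] at this
    have h3' : (3 : Qb) ≠ 0 := by norm_num
    have := (mul_eq_zero.mp this.symm).resolve_left h3'
    linear_combination -this
  set d : Qb := -y₂ / y₁ with hd_def
  set e : Qb := (x₂ - x₁) / (x₀ - x₁) with he_def
  have hd : d ≠ 0 := by
    rw [hd_def]; exact div_ne_zero (neg_ne_zero.mpr hy2ne) hy1ne
  have he0 : e ≠ 0 := div_ne_zero h12 hD01
  have hD20 : x₂ - x₀ ≠ 0 := by intro h; apply hD02; linear_combination -h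
  have he1' : e - 1 = (x₂ - x₀) / (x₀ - x₁) := by rw [he_def]; field_simp; ring
  have he1 : e - 1 ≠ 0 := by
    rw [he1']
    exact div_ne_zero hD20 hD01
  have hmod : ModRel d e := modRel_of_torsion hx1 hx2 hy1 hy2 hA hB hψ hy1ne h01
  obtain ⟨hdisc, hj⟩ := j_relation_of_torsion (y₂ := y₂) hx1 hy1 hy2 hA hB hy1ne hy2ne
  rw [← hd_def] at hdisc hj
  -- the coefficients
  have hA' : (S⁄Qb).a₄ = -27 * algebraMap ℚ Qb (c4 : ℚ) := by simp [h₄]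
  have hB' : (S⁄Qb).a₆ = -54 * algebraMap ℚ Qb (c6 : ℚ) := by simp [h₆]
  have hrelQ : (1728 : Qb) * algebraMap ℚ Qb (D : ℚ)
      = algebraMap ℚ Qb (c4 : ℚ) ^ 3 - algebraMap ℚ Qb (c6 : ℚ) ^ 2 := by
    have : (1728 : ℚ) * (D : ℚ) = (c4 : ℚ) ^ 3 - (c6 : ℚ) ^ 2 := by exact_mod_cast hrel
    have := congrArg (algebraMap ℚ Qb) this
    simpa using this
  have hDQ : algebraMap ℚ Qb (D : ℚ) ≠ 0 := by
    simpa using hD
  -- `t ≠ 0`
  have ht0 : modT d ≠ 0 := by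
    intro h
    rw [h, mul_zero, hA', hB'] at hdisc
    apply hDQ
    have : (-136048896 : Qb) * algebraMap ℚ Qb (D : ℚ) = 0 := by linear_combination hdisc / 16 - 78732 * hrelQ
    exact (mul_eq_zero.mp this).resolve_left (by norm_num)
  -- Galois invariance
  have hx0fix : ∀ σ : Qb ≃ₐ[ℚ] Qb, σ x₀ = x₀ := by
    intro σ; rw [← hq₀]; exact σ.commutes q₀
  have hfix : ∀ σ : Qb ≃ₐ[ℚ] Qb, σ (modT d) = modT d ∧ σ (modX e) = modX e ∧
      σ (modY d e) = modY d e := by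
    intro σ
    have hT' := map_modT (σ : Qb →+* Qb) d
    have hX' := map_modX (σ : Qb →+* Qb) e
    have hY' := map_modY (σ : Qb →+* Qb) d e
    simp only [RingHom.coe_coe] at hT' hX' hY'
    have hσe : σ e = (σ x₂ - σ x₁) / (x₀ - σ x₁) := by
      rw [he_def, map_div₀, map_sub, map_sub, hx0fix σ]
    rcases hσ σ with ⟨ha, hb, hc⟩ | ⟨ha, hb, hc⟩
    · rw [ha, hb] at hσe
      rw [hT', hX', hY', hc, hσe]
      exact ⟨rfl, rfl, rfl⟩
    · rw [ha, hb] at hσe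
      have hσe' : σ e = e / (e - 1) := by
        rw [hσe, he1', he_def]; field_simp; ring
      rw [hT', hX', hY', hc, hσe']
      exact ⟨modT_inv hd, modX_inv he1, modY_inv hd he1 hmod⟩
  obtain ⟨tq, htq⟩ := exists_rat_of_fixed (modT d) (fun σ => (hfix σ).1)
  obtain ⟨Xq, hXq⟩ := exists_rat_of_fixed (modX e) (fun σ => (hfix σ).2.1)
  obtain ⟨Yq, hYq⟩ := exists_rat_of_fixed (modY d e) (fun σ => (hfix σ).2.2)
  have hinj : Function.Injective (algebraMap ℚ Qb) := (algebraMap ℚ Qb).injective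
  -- the rational point on `X₀(15)`
  have hYsq : Yq ^ 2 = Xq * (Xq - 9) * (Xq - 25) := by
    apply hinj
    have := modY_sq he1 hmod
    rw [← hXq, ← hYq] at this
    simpa using this
  have hXlist := rational_points_E15 Xq Yq hYsq
  have hXlist' : modX e = 0 ∨ modX e = 5 ∨ modX e = 9 ∨ modX e = 25 ∨ modX e = 45 := by
    rw [← hXq]
    rcases hXlist with h | h | h | h | h <;> rw [h] <;> simp
  have htlist := modT_of_modX hd he1 he0 hmod ht0 hXlist'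
  have htlist' : tq = -10 ∨ tq = -40 ∨ tq = -25 / 2 ∨ tq = -25 / 8 := by
    rw [← htq] at htlist
    rcases htlist with h | h | h | h
    · left; apply hinj; rw [h]; simp
    · right; left; apply hinj; rw [h]; simp
    · right; right; left; apply hinj; rw [h]; simp
    · right; right; right; apply hinj; rw [h]; simp
  -- the `j`-relation over `ℚ`
  have hjQ : (c4 : ℚ) ^ 3 * tq = (D : ℚ) * (tq ^ 2 + 10 * tq + 5) ^ 3 := by
    apply hinj
    rw [← htq, hA', hB'] at hj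
    simp only [map_mul, map_pow, map_add, map_ofNat]
    have h1 : (136048896 : Qb) ≠ 0 := by norm_num
    apply mul_left_cancel₀ h1
    linear_combination (-1 : Qb) * hj
      - 78732 * (algebraMap ℚ Qb tq ^ 2 + 10 * algebraMap ℚ Qb tq + 5) ^ 3 * hrelQ
  exact semistable_contra c4 D hss tq htlist' hjQ

/-- Transfer of a Galois-stable line from the original model to the short model. -/
theorem stable_point_on_short (Wq Sq : Affine ℚ) (Φ : (Wq⁄Qb).Point →+ (Sq⁄Qb).Point)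
    (hΦinj : Function.Injective Φ)
    (hΦσ : ∀ (σ : Qb ≃ₐ[ℚ] Qb) (P : (Wq⁄Qb).Point), Φ (σ • P) = σ • Φ P)
    (Ψ : (Sq⁄Qb).Point →+ (Wq⁄Qb).Point) (hΨinj : Function.Injective Ψ)
    (p : ℕ) [Fact p.Prime]
    (hfin : {P : (Sq⁄Qb).Point | (p : ℤ) • P = 0}.Finite ∧
      {P : (Sq⁄Qb).Point | (p : ℤ) • P = 0}.ncard ≤ p ^ 2)
    (hex : ∃ P : (Sq⁄Qb).Point, P ≠ 0 ∧ (p : ℤ) • P = 0)
    (hirr : ¬ Affine.Point.GaloisRepIsIrreducible (K := Qb) ℚ Wq p) :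
    ∃ T : (Sq⁄Qb).Point, T ≠ 0 ∧ (p : ℤ) • T = 0 ∧
      ∀ σ : Qb ≃ₐ[ℚ] Qb, ∃ k : ℤ, σ • T = k • T := by
  have hmaps : ∀ P ∈ {P : (Wq⁄Qb).Point | (p : ℤ) • P = 0},
      Φ P ∈ {P : (Sq⁄Qb).Point | (p : ℤ) • P = 0} := by
    intro P hP
    change (p : ℤ) • P = 0 at hP
    change (p : ℤ) • Φ P = 0
    rw [← map_zsmul, hP, map_zero]
  have hfinW : {P : (Wq⁄Qb).Point | (p : ℤ) • P = 0}.Finite :=
    Set.Finite.of_injOn hmaps hΦinj.injOn hfin.1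
  have hcardW : {P : (Wq⁄Qb).Point | (p : ℤ) • P = 0}.ncard ≤ p ^ 2 :=
    (Set.ncard_le_ncard_of_injOn Φ hmaps hΦinj.injOn hfin.1).trans hfin.2
  have hexW : ∃ P : (Wq⁄Qb).Point, P ≠ 0 ∧ (p : ℤ) • P = 0 := by
    obtain ⟨P, hP0, hP⟩ := hex
    refine ⟨Ψ P, fun h => hP0 (hΨinj (by rw [h, map_zero])), ?_⟩
    rw [← map_zsmul, hP, map_zero]
  obtain ⟨P, hP0, hP, hst⟩ := exists_stable_generator Wq p hfinW hcardW hexW hirr
  refine ⟨Φ P, fun h => hP0 (hΦinj (by rw [h, map_zero])), ?_, fun σ => ?_⟩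
  · rw [← map_zsmul, hP, map_zero]
  · obtain ⟨k, hk⟩ := hst σ
    exact ⟨k, by rw [← hΦσ, hk, map_zsmul]⟩

/-- **S51**: for a semistable integral Weierstrass curve, the mod-3 or the mod-5 representation is
irreducible. -/
theorem main (W : WeierstrassCurve ℤ) (hΔ : W.Δ ≠ 0) (hW : W.IsSemistableModel) :
    W.ModRepIsIrreducible 3 ∨ W.ModRepIsIrreducible 5 := by
  by_contra hcon
  rw [not_or] at hcon
  obtain ⟨h3irr, h5irr⟩ := hcon
  unfold WeierstrassCurve.ModRepIsIrreducible at h3irr h5irr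
  set Wq : Affine ℚ := W.map (Int.castRingHom ℚ) with hWq
  set Sq : Affine ℚ := ⟨0, 0, 0, -27 * (W.c₄ : ℚ), -54 * (W.c₆ : ℚ)⟩ with hSq
  have hc4 : (Wq⁄Qb).c₄ = algebraMap ℚ Qb (W.c₄ : ℚ) := by
    change (Wq.map (algebraMap ℚ Qb)).c₄ = _
    rw [WeierstrassCurve.map_c₄, hWq, WeierstrassCurve.map_c₄]
    rfl
  have hc6 : (Wq⁄Qb).c₆ = algebraMap ℚ Qb (W.c₆ : ℚ) := by
    change (Wq.map (algebraMap ℚ Qb)).c₆ = _
    rw [WeierstrassCurve.map_c₆, hWq, WeierstrassCurve.map_c₆]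
    rfl
  have hS1 : (Sq⁄Qb).a₁ = 0 := by simp [hSq]
  have hS2 : (Sq⁄Qb).a₂ = 0 := by simp [hSq]
  have hS3 : (Sq⁄Qb).a₃ = 0 := by simp [hSq]
  have hS4 : (Sq⁄Qb).a₄ = -27 * (Wq⁄Qb).c₄ := by rw [hc4]; simp [hSq]
  have hS6 : (Sq⁄Qb).a₆ = -54 * (Wq⁄Qb).c₆ := by rw [hc6]; simp [hSq]
  obtain ⟨Φ, hΦinj, hΦ⟩ := exists_short_hom (Wq⁄Qb) (Sq⁄Qb) hS1 hS2 hS3 hS4 hS6
  obtain ⟨Ψ, hΨinj⟩ := exists_short_hom_inv (Wq⁄Qb) (Sq⁄Qb) hS1 hS2 hS3 hS4 hS6
  -- Galois equivariance of `Φ`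
  have hΦσ : ∀ (σ : Qb ≃ₐ[ℚ] Qb) (P : (Wq⁄Qb).Point), Φ (σ • P) = σ • Φ P := by
    intro σ P
    cases P with
    | zero =>
      have h0 : σ • (0 : (Wq⁄Qb).Point) = 0 := smul_zero (A := (Wq⁄Qb).Point) σ
      have h0' : σ • (0 : (Sq⁄Qb).Point) = 0 := smul_zero (A := (Sq⁄Qb).Point) σ
      change Φ (σ • (0 : (Wq⁄Qb).Point)) = σ • Φ 0
      rw [h0, map_zero, h0']
    | some x y h =>
      obtain ⟨h1, e1⟩ := smul_some σ h
      obtain ⟨h2, e2⟩ := hΦ x y h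
      obtain ⟨h3, e3⟩ := hΦ (σ x) (σ y) h1
      obtain ⟨h4, e4⟩ := smul_some σ h2
      rw [e1, e3, e2, e4]
      have hb2 : σ ((Wq⁄Qb).b₂) = (Wq⁄Qb).b₂ := by
        have : (Wq⁄Qb).b₂ = algebraMap ℚ Qb Wq.b₂ := by
          change (Wq.map (algebraMap ℚ Qb)).b₂ = _
          rw [WeierstrassCurve.map_b₂]
        rw [this]; exact σ.commutes _
      have ha1 : σ ((Wq⁄Qb).a₁) = (Wq⁄Qb).a₁ := by
        change σ (algebraMap ℚ Qb Wq.a₁) = algebraMap ℚ Qb Wq.a₁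
        exact σ.commutes _
      have ha3 : σ ((Wq⁄Qb).a₃) = (Wq⁄Qb).a₃ := by
        change σ (algebraMap ℚ Qb Wq.a₃) = algebraMap ℚ Qb Wq.a₃
        exact σ.commutes _
      simp only [map_add, map_mul, map_ofNat, hb2, ha1, ha3]
  -- the discriminant of the short model
  have hrel : 1728 * W.Δ = W.c₄ ^ 3 - W.c₆ ^ 2 := W.c_relation
  have hdiscS : 4 * (Sq⁄Qb).a₄ ^ 3 + 27 * (Sq⁄Qb).a₆ ^ 2 ≠ 0 := by
    have h1 : (4 : ℚ) * (-27 * (W.c₄ : ℚ)) ^ 3 + 27 * (-54 * (W.c₆ : ℚ)) ^ 2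
        = -136048896 * (W.Δ : ℚ) := by
      have : (1728 : ℚ) * (W.Δ : ℚ) = (W.c₄ : ℚ) ^ 3 - (W.c₆ : ℚ) ^ 2 := by exact_mod_cast hrel
      linear_combination (78732 : ℚ) * this
    have h2 : 4 * (Sq⁄Qb).a₄ ^ 3 + 27 * (Sq⁄Qb).a₆ ^ 2
        = algebraMap ℚ Qb ((4 : ℚ) * (-27 * (W.c₄ : ℚ)) ^ 3 + 27 * (-54 * (W.c₆ : ℚ)) ^ 2) := by
      simp [hSq]
    rw [h2, h1]
    simp [hΔ]
  have : Fact (Nat.Prime 3) := ⟨by norm_num⟩
  have : Fact (Nat.Prime 5) := ⟨by norm_num⟩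
  obtain ⟨T, hT, h3T, hstT⟩ := stable_point_on_short Wq Sq Φ hΦinj hΦσ Ψ hΨinj 3
    (by simpa using three_torsion_finite (Sq⁄Qb) hS1 hS2 hS3)
    (by simpa using exists_three_torsion (Sq⁄Qb) hS1 hS2 hS3 hdiscS) h3irr
  obtain ⟨Q, hQ, h5Q, hstQ⟩ := stable_point_on_short Wq Sq Φ hΦinj hΦσ Ψ hΨinj 5
    (by simpa using five_torsion_finite (Sq⁄Qb) hS1 hS2 hS3)
    (by simpa using exists_five_torsion (Sq⁄Qb) hS1 hS2 hS3 hdiscS) h5irr
  exact short_contradiction W.c₄ W.c₆ W.Δ hΔ hrel hW Sq rfl rfl rfl rfl rfl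
    (by simpa using hT) (by simpa using h3T) hstT (by simpa using hQ) (by simpa using h5Q) hstQ

end Fermat.Agent.S51
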